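import Mathlib

/-!
# S27 [B5]: automorphisms of an algebraically closed field moving a transcendental element
-/

set_option autoImplicit false

namespace Fermat.Agent.S27

open MvPolynomial in
/-- the translation automorphism `X i ↦ X i + C (c i)` of a polynomial ring. -/
noncomputable def mvTranslate {ι k : Type*} [CommRing k] (c : ι → k) :
    MvPolynomial ι k ≃ₐ[k] MvPolynomial ι k :=
  AlgEquiv.ofAlgHom (aeval fun i => X i + C (c i)) (aeval fun i => X i - C (c i))
    (by ext i; simp) (by ext i; simp)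

theorem mvTranslate_X {ι k : Type*} [CommRing k] (c : ι → k) (i : ι) :
    mvTranslate c (MvPolynomial.X i) = MvPolynomial.X i + MvPolynomial.C (c i) := by
  simp [mvTranslate]

theorem exists_algEquiv_add_natCast (k K : Type*) [Field k] [Field K] [Algebra k K]
    [IsAlgClosed K] (z : K) (hz : Transcendental k z) (m : ℕ) :
    ∃ σ : K ≃ₐ[k] K, σ z = z + m := by
  classical
  have hs : AlgebraicIndepOn k id ({z} : Set K) :=
    (algebraicIndependent_singleton_iff (⟨z, rfl⟩ : ({z} : Set K))).2 hz
  obtain ⟨t, hzt, ht⟩ := exists_isTranscendenceBasis_superset hs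
  have hzt' : z ∈ t := hzt rfl
  let _ := IsAlgClosed.isAlgClosure_of_transcendence_basis _ ht
  let A := Algebra.adjoin k (Set.range ((↑) : t → K))
  let c : t → k := fun i => if (i : K) = z then (m : k) else 0
  let e : A ≃ₐ[k] A := (ht.1.aevalEquiv.symm.trans (mvTranslate c)).trans ht.1.aevalEquiv
  let σ₀ : K ≃+* K := IsAlgClosure.equivOfEquiv K K e.toRingEquiv
  have hσ₀ : ∀ a : A, σ₀ (algebraMap A K a) = algebraMap A K (e a) := fun a =>
    IsAlgClosure.equivOfEquiv_algebraMap K K e.toRingEquiv a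
  refine ⟨AlgEquiv.ofRingEquiv (f := σ₀) fun r => ?_, ?_⟩
  · have h1 : algebraMap k K r = algebraMap A K (algebraMap k A r) := rfl
    rw [h1, hσ₀, e.commutes]
  · change σ₀ z = _
    have h1 : z = algebraMap A K (ht.1.aevalEquiv (MvPolynomial.X ⟨z, hzt'⟩)) := by
      rw [ht.1.algebraMap_aevalEquiv]; simp
    conv_lhs => rw [h1]
    rw [hσ₀]
    have h2 : e (ht.1.aevalEquiv (MvPolynomial.X ⟨z, hzt'⟩)) =
        ht.1.aevalEquiv (MvPolynomial.X ⟨z, hzt'⟩ + MvPolynomial.C (m : k)) := by
      simp only [e, AlgEquiv.trans_apply, AlgEquiv.symm_apply_apply, mvTranslate_X]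
      simp [c]
    rw [h2, ht.1.algebraMap_aevalEquiv]
    simp

end Fermat.Agent.S27
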