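import Fermat.Agent.S27.B.Basic
import Fermat.Agent.S27.A.Api

/-!
# S27 block [B2]: places extend uniquely under constant field extension
-/

set_option autoImplicit false
set_option linter.unusedSectionVars false
set_option linter.unusedVariables false

namespace Fermat.Agent.S27

open AlgebraicCurve Fermat.Agent.S24.FF TensorProduct IntermediateField

section Ext

variable {k K Fk F : Type*} [Field k] [Field K] [Field Fk] [Field F]
  [Algebra k K] [Algebra k Fk] [Algebra K F] [Algebra Fk F] [Algebra k F]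
  [IsScalarTower k K F] [IsScalarTower k Fk F]

/-- linear disjointness: `K·U ∩ Fk = U` for a `k`-subspace `U` of `Fk`. -/
theorem IsConstExt.mem_of_algebraMap_mem_span (h : IsConstExt k K Fk F) (U : Submodule k Fk)
    {f : Fk} (hf : algebraMap Fk F f ∈ Submodule.span K (algebraMap Fk F '' (U : Set Fk))) :
    f ∈ U := by
  by_contra hfU
  let b := Module.Basis.ofVectorSpace k U
  have hspan : Submodule.span k (Set.range (fun i => (b i : Fk))) = U := by
    have h1 : (fun i => (b i : Fk)) = U.subtype ∘ b := rfl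
    rw [h1, Set.range_comp, ← Submodule.map_span, b.span_eq, Submodule.map_top,
      Submodule.range_subtype]
  have hli : LinearIndependent k (fun i => (b i : Fk)) :=
    b.linearIndependent.map' U.subtype (Submodule.ker_subtype U)
  have h2 := h.linearIndependent_map (hli.option (x := f) (by rw [hspan]; exact hfU))
  rw [linearIndependent_option] at h2
  apply h2.2
  refine (Submodule.span_le.2 ?_) hf
  rintro _ ⟨u, hu, rfl⟩
  -- `u ∈ U = span_k b`
  let T : Submodule k Fk := ((Submodule.span K (Set.range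
    ((fun o : Option _ => algebraMap Fk F (Option.casesOn' o f fun i => (b i : Fk))) ∘
      (Option.some)))).restrictScalars k).comap (IsScalarTower.toAlgHom k Fk F).toLinearMap
  have hT : U ≤ T := by
    rw [← hspan, Submodule.span_le]
    rintro _ ⟨i, rfl⟩
    exact Submodule.subset_span ⟨i, rfl⟩
  exact hT hu

/-- `w` lies above `P`. -/
def IsAbove (w : Place K F) (P : Place k Fk) : Prop :=
  (∀ f : Fk, 0 ≤ P.ord f → 0 ≤ w.ord (algebraMap Fk F f)) ∧
    ∀ f : Fk, 0 < P.ord f → 0 < w.ord (algebraMap Fk F f)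

theorem IsAbove.unique {w : Place K F} {P P' : Place k Fk} (h : IsAbove w P)
    (h' : IsAbove w P') : P = P' := by
  have key : ∀ {Q Q' : Place k Fk}, IsAbove w Q → IsAbove w Q' → ∀ f : Fk,
      0 ≤ Q.ord f → 0 ≤ Q'.ord f := by
    intro Q Q' hQ hQ' f hf
    by_contra hneg
    have h1 : 0 < Q'.ord f⁻¹ := by rw [Q'.ord_inv]; omega
    have h2 := hQ'.2 _ h1
    rw [map_inv₀, w.ord_inv] at h2
    have h3 := hQ.1 _ hf
    omega
  exact place_ext_of_ord_nonneg fun f _ => ⟨key h h' f, key h' h f⟩

theorem IsAbove.exists_mul {w : Place K F} {P : Place k Fk} (h : IsAbove w P) :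
    ∃ m : ℤ, 0 < m ∧ ∀ f : Fk, w.ord (algebraMap Fk F f) = m * P.ord f := by
  obtain ⟨π, hπ⟩ := IsDiscreteValuationRing.exists_irreducible P.toValuationSubring
  have hπ1 : P.ord (π : Fk) = 1 := P.ord_coe_irreducible hπ
  refine ⟨w.ord (algebraMap Fk F (π : Fk)), h.2 _ (by omega), fun f => ?_⟩
  rcases eq_or_ne f 0 with rfl | hf
  · simp
  obtain ⟨u, hu⟩ := P.exists_unit_mul_zpow hf hπ
  have hu0 : w.ord (algebraMap Fk F ((u : P.toValuationSubring) : Fk)) = 0 := by
    have h1 := h.1 _ (P.ord_coe_unit u).ge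
    have h2 := h.1 _ (P.ord_coe_unit u⁻¹).ge
    have h3 : (((u⁻¹ : P.toValuationSubringˣ) : P.toValuationSubring) : Fk) =
        ((u : P.toValuationSubring) : Fk)⁻¹ := by
      apply eq_inv_of_mul_eq_one_left
      rw [← MulMemClass.coe_mul, Units.inv_mul]
      rfl
    rw [h3, map_inv₀, w.ord_inv] at h2
    omega
  have hune : algebraMap Fk F ((u : P.toValuationSubring) : Fk) ≠ 0 := by
    simp
  have hπne : algebraMap Fk F (π : Fk) ≠ 0 := by
    have : (π : Fk) ≠ 0 := ne_zero_of_ord_ne_zero P (by omega)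
    simpa using this
  conv_lhs => rw [hu]
  rw [map_mul, map_zpow₀, w.ord_mul hune (zpow_ne_zero _ hπne), hu0, w.ord_zpow, zero_add]
  ring

/-- the `k`-subspace `𝔪_P` of `Fk`. -/
def vanishSubmodule (P : Place k Fk) : Submodule k Fk where
  carrier := {f | f = 0 ∨ 0 < P.ord f}
  add_mem' := fun hf hg => vanish_add P hf hg
  zero_mem' := Or.inl rfl
  smul_mem' := by
    intro c f hf
    rw [Set.mem_ofPred_eq, Algebra.smul_def, mul_comm]
    exact vanish_mul P hf (ord_algebraMap_nonneg P c)

theorem mem_vanishSubmodule (P : Place k Fk) (f : Fk) :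
    f ∈ vanishSubmodule P ↔ f = 0 ∨ 0 < P.ord f := Iff.rfl

/-- `O_P · K` stabilises `𝔪_P · K`. -/
theorem mul_mem_span_vanish (P : Place k Fk) {r y : F}
    (hr : r ∈ Algebra.adjoin K (algebraMap Fk F '' {f : Fk | 0 ≤ P.ord f}))
    (hy : y ∈ Submodule.span K (algebraMap Fk F '' (vanishSubmodule P : Set Fk))) :
    r * y ∈ Submodule.span K (algebraMap Fk F '' (vanishSubmodule P : Set Fk)) := by
  induction hr using Algebra.adjoin_induction generalizing y with
  | mem r hr =>
    obtain ⟨o, ho, rfl⟩ := hr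
    induction hy using Submodule.span_induction with
    | mem y hy =>
      obtain ⟨m, hm, rfl⟩ := hy
      rw [← map_mul, mul_comm]
      exact Submodule.subset_span ⟨m * o, vanish_mul P hm ho, rfl⟩
    | zero => rw [mul_zero]; exact zero_mem _
    | add y y' _ _ hy hy' => rw [mul_add]; exact add_mem hy hy'
    | smul c y _ hy => rw [mul_smul_comm]; exact Submodule.smul_mem _ c hy
  | algebraMap c => rw [← Algebra.smul_def]; exact Submodule.smul_mem _ c hy
  | add r r' _ _ hr hr' => rw [add_mul]; exact add_mem (hr hy) (hr' hy)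
  | mul r r' _ _ hr hr' => rw [mul_assoc]; exact hr (hr' hy)

/-- every place of `Fk` has a place of `F` above it. -/
theorem IsConstExt.exists_isAbove [CharZero K] [IsFF1 K F] (h : IsConstExt k K Fk F)
    (P : Place k Fk) : ∃ w : Place K F, IsAbove w P := by
  let A₀ : Subalgebra K F := Algebra.adjoin K (algebraMap Fk F '' {f : Fk | 0 ≤ P.ord f})
  let A : Subring F := A₀.toSubring
  have hOA : ∀ f : Fk, 0 ≤ P.ord f → algebraMap Fk F f ∈ A := fun f hf =>
    Algebra.subset_adjoin ⟨f, hf, rfl⟩
  let I : Ideal A := Ideal.span {a : A | ∃ m : Fk, 0 < P.ord m ∧ (a : F) = algebraMap Fk F m}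
  have hIJ : ∀ a ∈ I, (a : F) ∈
      Submodule.span K (algebraMap Fk F '' (vanishSubmodule P : Set Fk)) := by
    intro a ha
    induction ha using Submodule.span_induction with
    | mem a ha =>
      obtain ⟨m, hm, hma⟩ := ha
      rw [hma]
      exact Submodule.subset_span ⟨m, Or.inr hm, rfl⟩
    | zero => exact zero_mem _
    | add a a' _ _ ha ha' => exact add_mem ha ha'
    | smul r a _ ha => exact mul_mem_span_vanish P r.2 ha
  have hI : I ≠ ⊤ := by
    intro htop
    have h1 : (1 : A) ∈ I := by rw [htop]; exact Submodule.mem_top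
    have h2 := hIJ 1 h1
    have h3 : ((1 : A) : F) = algebraMap Fk F 1 := by simp
    rw [h3] at h2
    rcases h.mem_of_algebraMap_mem_span _ h2 with h4 | h4
    · exact one_ne_zero h4
    · simp at h4
  obtain ⟨B, hAB, hIB⟩ := Ideal.image_subset_nonunits_valuationSubring I hI
  have hpos : ∀ f : Fk, 0 < P.ord f → algebraMap Fk F f ∈ B.nonunits := by
    intro f hf
    apply hIB
    exact ⟨⟨algebraMap Fk F f, hOA f hf.le⟩, Ideal.subset_span ⟨f, hf, rfl⟩, rfl⟩
  have hK : ∀ a : K, algebraMap K F a ∈ B := fun a => hAB (A₀.algebraMap_mem a)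
  have hB : B ≠ ⊤ := by
    intro htop
    obtain ⟨π, hπ⟩ := exists_ord_eq_one P
    have h1 := hpos π (by omega)
    rw [ValuationSubring.mem_nonunits_iff_or] at h1
    rcases h1 with h1 | h1
    · have : π ≠ 0 := ne_zero_of_ord_ne_zero P (by omega)
      exact this (by simpa using h1)
    · exact h1 (by rw [htop]; exact ValuationSubring.mem_top _)
  obtain ⟨w, hw⟩ := exists_place_of_valuationSubring B hK hB
  refine ⟨w, fun f hf => ?_, fun f hf => ?_⟩
  · apply ord_nonneg_of_mem
    rw [hw]
    exact hAB (hOA f hf)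
  · have h1 := hpos f hf
    rw [ValuationSubring.mem_nonunits_iff_or] at h1
    have hf0 : f ≠ 0 := ne_zero_of_ord_ne_zero P hf.ne'
    rcases h1 with h1 | h1
    · exact absurd (by simpa using h1) hf0
    · by_contra hneg
      apply h1
      rw [← hw]
      apply mem_toValuationSubring_of_ord_nonneg
      rw [w.ord_inv]
      omega

/-- a place of `F` at which some element of `Fk` has a zero or a pole lies above a place of
`Fk`. -/
theorem exists_isAbove_of_ord_ne_zero [CharZero k] [IsFF1 k Fk] (w : Place K F) {f₀ : Fk}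
    (h0 : w.ord (algebraMap Fk F f₀) ≠ 0) : ∃ P : Place k Fk, IsAbove w P := by
  let O : ValuationSubring Fk := w.toValuationSubring.comap (algebraMap Fk F)
  have hk : ∀ a : k, algebraMap k Fk a ∈ O := by
    intro a
    rw [ValuationSubring.mem_comap, ← IsScalarTower.algebraMap_apply,
      IsScalarTower.algebraMap_apply k K F]
    exact w.algebraMap_mem' _
  have hO : O ≠ ⊤ := by
    intro htop
    have h1 : f₀ ∈ O := by rw [htop]; exact ValuationSubring.mem_top _
    have h2 : f₀⁻¹ ∈ O := by rw [htop]; exact ValuationSubring.mem_top _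
    rw [ValuationSubring.mem_comap] at h1 h2
    have h3 := ord_nonneg_of_mem w h1
    have h4 := ord_nonneg_of_mem w h2
    rw [map_inv₀, w.ord_inv] at h4
    omega
  obtain ⟨P, hP⟩ := exists_place_of_valuationSubring O hk hO
  refine ⟨P, fun f hf => ?_, fun f hf => ?_⟩
  · have h1 := mem_toValuationSubring_of_ord_nonneg P hf
    rw [hP, ValuationSubring.mem_comap] at h1
    exact ord_nonneg_of_mem w h1
  · by_contra hneg
    have h1 : (algebraMap Fk F f)⁻¹ ∈ w.toValuationSubring := by
      apply mem_toValuationSubring_of_ord_nonneg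
      rw [w.ord_inv]
      omega
    rw [← map_inv₀, ← ValuationSubring.mem_comap] at h1
    have h2 : f⁻¹ ∈ P.toValuationSubring := by rw [hP]; exact h1
    have h3 := ord_nonneg_of_mem P h2
    rw [P.ord_inv] at h3
    omega

variable [IsAlgClosed k] [IsAlgClosed K] [CharZero k] [CharZero K] [IsFF1 k Fk] [IsFF1 K F]

/-- the counting argument: exactly one place above `P₀`, unramified. -/
theorem IsConstExt.exists_ext_main (h : IsConstExt k K Fk F) (P₀ : Place k Fk) :
    ∃ w₀ : Place K F, (∀ f : Fk, w₀.ord (algebraMap Fk F f) = P₀.ord f) ∧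
      ∀ w : Place K F, IsAbove w P₀ → w = w₀ := by
  classical
  obtain ⟨t, ht1⟩ := exists_ord_eq_one P₀
  have ht : Transcendental k t := transcendental_of_ord_ne_zero P₀ (by omega)
  have hT := h.transcendental_map ht
  have hZk : ∀ P : Place k Fk, P ∈ (finite_zeros ht).toFinset ↔ 0 < P.ord t := by
    intro P; simp
  have hZ : ∀ w : Place K F, w ∈ (finite_zeros hT).toFinset ↔
      0 < w.ord (algebraMap Fk F t) := by
    intro w; simp
  have hsum : ∑ w ∈ (finite_zeros hT).toFinset, w.ord (algebraMap Fk F t) =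
      ∑ P ∈ (finite_zeros ht).toFinset, P.ord t := by
    rw [sum_ord_zeros hT, sum_ord_zeros ht, h.finrank_eq ht]
  generalize (finite_zeros ht).toFinset = Zk at hZk hsum
  generalize (finite_zeros hT).toFinset = Z at hZ hsum
  -- the restriction map
  have hres : ∀ w : Place K F, ∃ P : Place k Fk, w ∈ Z → IsAbove w P := by
    intro w
    by_cases hw : w ∈ Z
    · obtain ⟨P, hP⟩ := exists_isAbove_of_ord_ne_zero (k := k) w (f₀ := t) ((hZ w).1 hw).ne'
      exact ⟨P, fun _ => hP⟩
    · exact ⟨P₀, fun h => absurd h hw⟩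
  choose res hres using hres
  have hmaps : ∀ w ∈ Z, res w ∈ Zk := by
    intro w hw
    obtain ⟨m, hm, hmul⟩ := (hres w hw).exists_mul
    have h1 := (hZ w).1 hw
    rw [hmul] at h1
    exact (hZk _).2 ((mul_pos_iff_of_pos_left hm).1 h1)
  have hfib := Finset.sum_fiberwise_of_maps_to hmaps (fun w => w.ord (algebraMap Fk F t))
  have hnonneg : ∀ P : Place k Fk, ∀ w ∈ Z.filter (fun w => res w = P),
      0 ≤ w.ord (algebraMap Fk F t) := fun P w hw => ((hZ w).1 (Finset.mem_filter.1 hw).1).le
  have hmem : ∀ (P : Place k Fk) (w : Place K F), P ∈ Zk → IsAbove w P →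
      w ∈ Z.filter (fun w => res w = P) := by
    intro P w hP hw
    have hwZ : w ∈ Z := (hZ w).2 (hw.2 t ((hZk P).1 hP))
    exact Finset.mem_filter.2 ⟨hwZ, (hres w hwZ).unique hw⟩
  have hle : ∀ (P : Place k Fk) (w : Place K F), P ∈ Zk → IsAbove w P →
      P.ord t ≤ w.ord (algebraMap Fk F t) := by
    intro P w hP hw
    obtain ⟨m, hm, hmul⟩ := hw.exists_mul
    rw [hmul]
    have := (hZk P).1 hP
    nlinarith
  have hge : ∀ P ∈ Zk, P.ord t ≤ ∑ w ∈ Z.filter (fun w => res w = P),
      w.ord (algebraMap Fk F t) := by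
    intro P hP
    obtain ⟨wP, hwP⟩ := h.exists_isAbove P
    exact (hle P wP hP hwP).trans
      (Finset.single_le_sum (f := fun w => w.ord (algebraMap Fk F t)) (hnonneg P)
        (hmem P wP hP hwP))
  have heq := (Finset.sum_eq_sum_iff_of_le hge).1 (by rw [hfib, hsum])
  have hP₀ : P₀ ∈ Zk := (hZk P₀).2 (by omega)
  have heq₀ := heq P₀ hP₀
  obtain ⟨w₀, hw₀⟩ := h.exists_isAbove P₀
  refine ⟨w₀, ?_, ?_⟩
  · obtain ⟨m, hm, hmul⟩ := hw₀.exists_mul
    have h1 : w₀.ord (algebraMap Fk F t) ≤ P₀.ord t := by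
      rw [heq₀]
      exact Finset.single_le_sum (f := fun w => w.ord (algebraMap Fk F t)) (hnonneg P₀)
        (hmem P₀ w₀ hP₀ hw₀)
    rw [hmul, ht1] at h1
    have hm1 : m = 1 := by omega
    intro f
    rw [hmul, hm1, one_mul]
  · intro w hw
    by_contra hne
    have h1 : ∑ v ∈ ({w₀, w} : Finset (Place K F)), v.ord (algebraMap Fk F t) ≤
        ∑ v ∈ Z.filter (fun w => res w = P₀), v.ord (algebraMap Fk F t) := by
      apply Finset.sum_le_sum_of_subset_of_nonneg
      · intro v hv
        rcases Finset.mem_insert.1 hv with rfl | hv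
        · exact hmem P₀ _ hP₀ hw₀
        · rw [Finset.mem_singleton.1 hv]
          exact hmem P₀ _ hP₀ hw
      · intro v hv _
        exact hnonneg P₀ v hv
    rw [Finset.sum_pair (Ne.symm hne), ← heq₀] at h1
    have h2 := hle P₀ w₀ hP₀ hw₀
    have h3 := hle P₀ w hP₀ hw
    omega

theorem isAbove_of_ord_eq {w : Place K F} {P : Place k Fk}
    (h : ∀ f : Fk, w.ord (algebraMap Fk F f) = P.ord f) : IsAbove w P :=
  ⟨fun f hf => by rw [h]; exact hf, fun f hf => by rw [h]; exact hf⟩

/-! ## [B2] extension of places -/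

theorem IsConstExt.existsUnique_ext (h : IsConstExt k K Fk F) (P : Place k Fk) :
    ∃! w : Place K F, ∀ f : Fk, w.ord (algebraMap Fk F f) = P.ord f := by
  obtain ⟨w₀, h1, h2⟩ := h.exists_ext_main P
  exact ⟨w₀, h1, fun w hw => h2 w (isAbove_of_ord_eq hw)⟩

/-- the unique extension of a place of `Fk/k` to `F/K`. -/
noncomputable def IsConstExt.ext (h : IsConstExt k K Fk F) (P : Place k Fk) : Place K F :=
  (h.existsUnique_ext P).choose

theorem IsConstExt.ord_ext (h : IsConstExt k K Fk F) (P : Place k Fk) (f : Fk) :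
    (h.ext P).ord (algebraMap Fk F f) = P.ord f :=
  (h.existsUnique_ext P).choose_spec.1 f

theorem IsConstExt.isAbove_ext (h : IsConstExt k K Fk F) (P : Place k Fk) :
    IsAbove (h.ext P) P := isAbove_of_ord_eq (h.ord_ext P)

theorem IsConstExt.eq_ext_of_isAbove (h : IsConstExt k K Fk F) {w : Place K F} {P : Place k Fk}
    (hw : IsAbove w P) : w = h.ext P := by
  obtain ⟨w₀, -, h2⟩ := h.exists_ext_main P
  rw [h2 w hw, h2 _ (h.isAbove_ext P)]

theorem IsConstExt.ext_injective (h : IsConstExt k K Fk F) : Function.Injective h.ext := by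
  intro P P' hPP'
  have h1 := h.isAbove_ext P
  rw [hPP'] at h1
  exact h1.unique (h.isAbove_ext P')

/-- a place of `F` at which some element of `Fk` has a zero or a pole is extended from `Fk`. -/
theorem IsConstExt.mem_range_ext_of_ord_ne_zero (h : IsConstExt k K Fk F) (w : Place K F)
    {f₀ : Fk} (h0 : w.ord (algebraMap Fk F f₀) ≠ 0) : w ∈ Set.range h.ext := by
  obtain ⟨P, hP⟩ := exists_isAbove_of_ord_ne_zero (k := k) w h0
  exact ⟨P, (h.eq_ext_of_isAbove hP).symm⟩

/-- a place of `F` whose `x`-value lies in `k ∪ {∞}` is extended from `Fk`. -/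
theorem IsConstExt.mem_range_ext (h : IsConstExt k K Fk F) {x : Fk} (hx : Transcendental k x)
    (w : Place K F)
    (hw : w.ord (algebraMap Fk F x) < 0 ∨
      ∃ a : k, 0 < w.ord (algebraMap Fk F x - algebraMap K F (algebraMap k K a))) :
    w ∈ Set.range h.ext := by
  rcases hw with hw | ⟨a, ha⟩
  · exact h.mem_range_ext_of_ord_ne_zero w hw.ne
  · refine h.mem_range_ext_of_ord_ne_zero w (f₀ := x - algebraMap k Fk a) ?_
    rw [map_sub, ← IsScalarTower.algebraMap_apply k Fk F, IsScalarTower.algebraMap_apply k K F]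
    exact ha.ne'

/-- extension of divisors. -/
noncomputable def IsConstExt.extDiv (h : IsConstExt k K Fk F) (D : Divisor k Fk) : Divisor K F :=
  D.mapDomain h.ext

theorem IsConstExt.degree_extDiv (h : IsConstExt k K Fk F) (D : Divisor k Fk) :
    Divisor.degree (h.extDiv D) = Divisor.degree D := by
  unfold IsConstExt.extDiv
  induction D using Finsupp.induction_linear with
  | zero => simp
  | add D D' hD hD' => rw [Finsupp.mapDomain_add, map_add, map_add, hD, hD']
  | single P n =>
    rw [Finsupp.mapDomain_single, Divisor.degree_single, Divisor.degree_single, deg_eq_one,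
      deg_eq_one]

theorem IsConstExt.exists_extDiv_eq (h : IsConstExt k K Fk F) (D : Divisor K F)
    (hD : ∀ w ∈ D.support, w ∈ Set.range h.ext) : ∃ D₀ : Divisor k Fk, h.extDiv D₀ = D :=
  ⟨D.comapDomain h.ext h.ext_injective.injOn,
    Finsupp.mapDomain_comapDomain _ h.ext_injective D (fun w hw => hD w hw)⟩

theorem IsConstExt.extDiv_apply_ext (h : IsConstExt k K Fk F) (D : Divisor k Fk)
    (P : Place k Fk) : h.extDiv D (h.ext P) = D P :=
  Finsupp.mapDomain_apply h.ext_injective D P

theorem IsConstExt.extDiv_apply_of_notMem_range (h : IsConstExt k K Fk F) (D : Divisor k Fk)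
    {w : Place K F} (hw : w ∉ Set.range h.ext) : h.extDiv D w = 0 :=
  Finsupp.mapDomain_of_notMem_range D w hw

end Ext

end Fermat.Agent.S27
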