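import Fermat.Agent.S27.Defs

/-!
# S27 block [B1]: constant field extensions: linear disjointness, `IsFF1`, degree
-/

set_option autoImplicit false
set_option linter.unusedSectionVars false

namespace Fermat.Agent.S27

open AlgebraicCurve Fermat.Agent.S24.FF TensorProduct IntermediateField

/-- `x` is transcendental iff its powers are linearly independent. -/
theorem transcendental_iff_linearIndependent_pow {R A : Type*} [CommRing R] [Ring A] [Algebra R A]
    (x : A) : Transcendental R x ↔ LinearIndependent R (fun n : ℕ => x ^ n) := by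
  rw [transcendental_iff_injective]
  constructor
  · intro h
    have h1 := (Polynomial.basisMonomials R).linearIndependent.map' (Polynomial.aeval x).toLinearMap
      (LinearMap.ker_eq_bot.2 h)
    have h2 : ((Polynomial.aeval x).toLinearMap ∘ (Polynomial.basisMonomials R)) =
        fun n : ℕ => x ^ n := by
      funext n
      simp [Polynomial.coe_basisMonomials]
    rwa [h2] at h1
  · intro h
    rw [injective_iff_map_eq_zero]
    intro p hp
    rw [Polynomial.aeval_eq_sum_range] at hp
    have h1 := linearIndependent_iff'.1 h (Finset.range (p.natDegree + 1)) p.coeff hp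
    ext n
    by_cases hn : n ≤ p.natDegree
    · simpa using h1 n (Finset.mem_range_succ_iff.2 hn)
    · simpa using Polynomial.coeff_eq_zero_of_natDegree_lt (not_le.1 hn)

section
open scoped IntermediateField.algebraAdjoinAdjoin

theorem linearIndependent_adjoinSimple_of_adjoin {K F : Type*} [Field K] [Field F] [Algebra K F]
    (X : F) {J : Type*} (v : J → F) (h : LinearIndependent (Algebra.adjoin K {X}) v) :
    LinearIndependent K⟮X⟯ v := by
  have : IsFractionRing (Algebra.adjoin K {X}) K⟮X⟯ := inferInstance
  exact LinearIndependent.localization (R := Algebra.adjoin K {X})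
    (S := nonZeroDivisors (Algebra.adjoin K {X})) _ h

end

section Ext

variable {k K Fk F : Type*} [Field k] [Field K] [Field Fk] [Field F]
  [Algebra k K] [Algebra k Fk] [Algebra K F] [Algebra Fk F] [Algebra k F]
  [IsScalarTower k K F] [IsScalarTower k Fk F]

theorem constExtMap_tmul (f : Fk) (c : K) :
    constExtMap k K Fk F (f ⊗ₜ[k] c) = algebraMap Fk F f * algebraMap K F c := by
  simp [constExtMap]

/-- linear disjointness, elementwise form. -/
theorem IsConstExt.linearIndependent_map (h : IsConstExt k K Fk F) {ι : Type*} {f : ι → Fk}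
    (hf : LinearIndependent k f) : LinearIndependent K (fun i => algebraMap Fk F (f i)) := by
  classical
  have h1 : Function.Injective
      ((Finsupp.linearCombination k f).rTensor K) :=
    Module.Flat.rTensor_preserves_injective_linearMap _ hf
  have key : ∀ c : ι →₀ K,
      Finsupp.linearCombination K (fun i => algebraMap Fk F (f i)) c =
        constExtMap k K Fk F (((Finsupp.linearCombination k f).rTensor K)
          ((TensorProduct.finsuppScalarLeft k K ι).symm c)) := by
    intro c
    induction c using Finsupp.induction_linear with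
    | zero => simp
    | add c d hc hd => simp only [map_add, hc, hd]
    | single i c =>
      rw [TensorProduct.finsuppScalarLeft_symm_apply_single, LinearMap.rTensor_tmul,
        Finsupp.linearCombination_single, Finsupp.linearCombination_single, one_smul,
        constExtMap_tmul, Algebra.smul_def, mul_comm]
  intro c d hcd
  rw [key, key] at hcd
  exact (TensorProduct.finsuppScalarLeft k K ι).symm.injective (h1 (h.inj hcd))

/-- linear disjointness, symmetric form. -/
theorem IsConstExt.linearIndependent_map' (h : IsConstExt k K Fk F) {ι : Type*} {c : ι → K}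
    (hc : LinearIndependent k c) : LinearIndependent Fk (fun i => algebraMap K F (c i)) := by
  classical
  have h1 : Function.Injective
      ((Finsupp.linearCombination k c).lTensor Fk) :=
    Module.Flat.lTensor_preserves_injective_linearMap _ hc
  have key : ∀ g : ι →₀ Fk,
      Finsupp.linearCombination Fk (fun i => algebraMap K F (c i)) g =
        constExtMap k K Fk F (((Finsupp.linearCombination k c).lTensor Fk)
          ((TensorProduct.finsuppScalarRight k k Fk ι).symm g)) := by
    intro g
    induction g using Finsupp.induction_linear with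
    | zero => simp
    | add c d hc hd => simp only [map_add, hc, hd]
    | single i g =>
      rw [TensorProduct.finsuppScalarRight_symm_apply_single, LinearMap.lTensor_tmul,
        Finsupp.linearCombination_single, Finsupp.linearCombination_single, one_smul,
        constExtMap_tmul, Algebra.smul_def]
  intro g d hgd
  rw [key, key] at hgd
  exact (TensorProduct.finsuppScalarRight k k Fk ι).symm.injective (h1 (h.inj hgd))

theorem IsConstExt.transcendental_map (h : IsConstExt k K Fk F) {x : Fk}
    (hx : Transcendental k x) : Transcendental K (algebraMap Fk F x) := by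
  rw [transcendental_iff_linearIndependent_pow] at hx ⊢
  simpa only [map_pow] using h.linearIndependent_map hx

/-! ### a basis of `Fk` over `k(x)` is a basis of `F` over `K(x)` -/

section Basis

variable {x : Fk} {J : Type*} [Fintype J]

theorem IsConstExt.linearIndependent_pow_mul (h : IsConstExt k K Fk F)
    (hx : Transcendental k x) (b : Module.Basis J k⟮x⟯ Fk) :
    LinearIndependent K
      (fun p : ℕ × J => algebraMap Fk F x ^ p.1 * algebraMap Fk F (b p.2)) := by
  have h1 : LinearIndependent k (fun l : ℕ => (AdjoinSimple.gen k x) ^ l) := by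
    apply LinearIndependent.of_comp (k⟮x⟯.val.toLinearMap)
    have h2 : (k⟮x⟯.val.toLinearMap ∘ fun l : ℕ => (AdjoinSimple.gen k x) ^ l) =
        fun l : ℕ => x ^ l := by
      funext l
      simp
    rw [h2]
    exact (transcendental_iff_linearIndependent_pow x).1 hx
  have h3 := h.linearIndependent_map (linearIndependent_smul h1 b.linearIndependent)
  have h4 : (fun p : ℕ × J => algebraMap Fk F ((AdjoinSimple.gen k x) ^ p.1 • b p.2)) =
      fun p : ℕ × J => algebraMap Fk F x ^ p.1 * algebraMap Fk F (b p.2) := by
    funext p
    rw [Algebra.smul_def, map_mul, map_pow, AdjoinSimple.algebraMap_gen, map_pow]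
  rwa [h4] at h3

theorem IsConstExt.linearIndependent_adjoin (h : IsConstExt k K Fk F)
    (hx : Transcendental k x) (b : Module.Basis J k⟮x⟯ Fk) :
    LinearIndependent (Algebra.adjoin K {algebraMap Fk F x})
      (fun j : J => algebraMap Fk F (b j)) := by
  classical
  rw [Fintype.linearIndependent_iff]
  intro g hg
  have hp : ∀ j, ∃ p : Polynomial K, Polynomial.aeval (algebraMap Fk F x) p = (g j : F) := by
    intro j
    have h0 : (g j : F) ∈ (Polynomial.aeval (R := K) (algebraMap Fk F x)).range := by
      rw [← Algebra.adjoin_singleton_eq_range_aeval]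
      exact (g j).2
    exact h0
  choose p hp using hp
  obtain ⟨N, hN⟩ : ∃ N : ℕ, ∀ j, (p j).natDegree < N :=
    ⟨(Finset.univ.sup fun j => (p j).natDegree) + 1, fun j =>
      Nat.lt_succ_of_le (Finset.le_sup (f := fun j => (p j).natDegree) (Finset.mem_univ j))⟩
  have h1 := linearIndependent_iff'.1 (h.linearIndependent_pow_mul hx b)
    (Finset.range N ×ˢ Finset.univ) (fun q => (p q.2).coeff q.1) (by
      rw [Finset.sum_product_right]
      rw [← hg]
      refine Finset.sum_congr rfl fun j _ => ?_
      rw [Subalgebra.smul_def, smul_eq_mul, ← hp j, Polynomial.aeval_eq_sum_range' (hN j),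
        Finset.sum_mul]
      refine Finset.sum_congr rfl fun l _ => ?_
      rw [smul_mul_assoc])
  intro j
  have h2 : p j = 0 := by
    ext l
    by_cases hl : l < N
    · simpa using h1 (l, j) (by simp [hl])
    · simpa using Polynomial.coeff_eq_zero_of_natDegree_lt (lt_of_lt_of_le (hN j) (not_lt.1 hl))
  apply Subtype.ext
  rw [← hp j, h2]
  simp

theorem IsConstExt.linearIndependent_adjoinSimple (h : IsConstExt k K Fk F)
    (hx : Transcendental k x) (b : Module.Basis J k⟮x⟯ Fk) :
    LinearIndependent K⟮algebraMap Fk F x⟯ (fun j : J => algebraMap Fk F (b j)) :=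
  linearIndependent_adjoinSimple_of_adjoin _ _ (h.linearIndependent_adjoin hx b)

theorem algebraMap_mem_adjoinSimple (x r : Fk) (hr : r ∈ k⟮x⟯) :
    algebraMap Fk F r ∈ K⟮algebraMap Fk F x⟯ := by
  obtain ⟨p, q, rfl⟩ := (IntermediateField.mem_adjoin_simple_iff k r).1 hr
  rw [map_div₀]
  have key : ∀ p : Polynomial k,
      algebraMap Fk F (Polynomial.aeval x p) ∈ K⟮algebraMap Fk F x⟯ := by
    intro p
    rw [← Polynomial.aeval_algebraMap_apply, ← Polynomial.aeval_map_algebraMap K]
    exact IntermediateField.algebra_adjoin_le_adjoin K _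
      (Polynomial.aeval_mem_adjoin_singleton K _)
  exact div_mem (key p) (key q)

theorem algebraMap_mem_span_basis (b : Module.Basis J k⟮x⟯ Fk) (f : Fk) :
    algebraMap Fk F f ∈ Submodule.span K⟮algebraMap Fk F x⟯
      (Set.range fun j : J => algebraMap Fk F (b j)) := by
  rw [← b.sum_repr f, map_sum]
  refine Submodule.sum_mem _ fun j _ => ?_
  rw [Algebra.smul_def, map_mul]
  exact Submodule.smul_mem _
    (⟨_, algebraMap_mem_adjoinSimple (K := K) (F := F) x _ (b.repr f j).2⟩ :
      K⟮algebraMap Fk F x⟯) (Submodule.subset_span ⟨j, rfl⟩)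

theorem IsConstExt.span_basis_eq_top (h : IsConstExt k K Fk F) (b : Module.Basis J k⟮x⟯ Fk) :
    Submodule.span K⟮algebraMap Fk F x⟯ (Set.range fun j : J => algebraMap Fk F (b j)) = ⊤ := by
  set X : F := algebraMap Fk F x with hX
  set W := Submodule.span K⟮X⟯ (Set.range fun j : J => algebraMap Fk F (b j)) with hW
  set s : Set F := Set.range (algebraMap Fk F) with hs
  -- the subalgebra generated by `Fk` is the span of the basis
  have h1 : Subalgebra.toSubmodule (Algebra.adjoin K⟮X⟯ s) = W := by
    have h2 : Subalgebra.toSubmodule (Algebra.adjoin K⟮X⟯ s) = Submodule.span K⟮X⟯ s := by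
      apply Algebra.adjoin_eq_span_of_subset
      have h3 : Submonoid.closure s = MonoidHom.mrange (algebraMap Fk F : Fk →* F) := by
        have : s = (MonoidHom.mrange (algebraMap Fk F : Fk →* F) : Set F) := by
          rw [MonoidHom.coe_mrange]; rfl
        rw [this, Submonoid.closure_eq]
      rw [h3]
      intro y hy
      exact Submodule.subset_span hy
    rw [h2]
    apply le_antisymm
    · rw [Submodule.span_le]
      rintro _ ⟨f, rfl⟩
      exact algebraMap_mem_span_basis b f
    · apply Submodule.span_mono
      rintro _ ⟨j, rfl⟩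
      exact ⟨b j, rfl⟩
  have hfg : (Subalgebra.toSubmodule (Algebra.adjoin K⟮X⟯ s)).FG := by
    rw [h1]
    exact Submodule.fg_span (Set.finite_range _)
  have halg : ∀ y ∈ s, IsAlgebraic K⟮X⟯ y := fun y hy =>
    (IsIntegral.of_mem_of_fg _ hfg y (Algebra.subset_adjoin hy)).isAlgebraic
  have h4 : IntermediateField.adjoin K⟮X⟯ s = ⊤ := by
    rw [eq_top_iff]
    intro z _
    have h5 : ∀ t : Fk ⊗[k] K, constExtMap k K Fk F t ∈ IntermediateField.adjoin K⟮X⟯ s := by
      intro t
      induction t using TensorProduct.induction_on with
      | zero => rw [map_zero]; exact zero_mem _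
      | tmul f c =>
        rw [constExtMap_tmul]
        refine mul_mem (IntermediateField.subset_adjoin _ _ ⟨f, rfl⟩) ?_
        rw [IsScalarTower.algebraMap_apply K K⟮X⟯ F]
        exact IntermediateField.algebraMap_mem _ _
      | add t t' ht ht' => rw [map_add]; exact add_mem ht ht'
    obtain ⟨a, c, hc, hz⟩ := h.gen z
    rw [eq_div_of_mul_eq hc hz]
    exact div_mem (h5 a) (h5 c)
  have h6 := IntermediateField.adjoin_toSubalgebra_of_isAlgebraic halg
  rw [h4, IntermediateField.top_toSubalgebra] at h6
  rw [← h1, ← h6]
  simp

/-- a basis of `Fk/k(x)` gives a basis of `F/K(x)`. -/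
noncomputable def IsConstExt.basis (h : IsConstExt k K Fk F) (hx : Transcendental k x)
    (b : Module.Basis J k⟮x⟯ Fk) : Module.Basis J K⟮algebraMap Fk F x⟯ F :=
  Module.Basis.mk (h.linearIndependent_adjoinSimple hx b) (h.span_basis_eq_top b).ge

theorem IsConstExt.basis_apply (h : IsConstExt k K Fk F) (hx : Transcendental k x)
    (b : Module.Basis J k⟮x⟯ Fk) (j : J) : h.basis hx b j = algebraMap Fk F (b j) := by
  simp [IsConstExt.basis]

end Basis

theorem IsConstExt.finiteDimensional (h : IsConstExt k K Fk F) [IsFF1 k Fk] {x : Fk}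
    (hx : Transcendental k x) : FiniteDimensional K⟮algebraMap Fk F x⟯ F := by
  have := finiteDimensional_adjoin_of_transcendental hx
  exact Module.Finite.of_basis (h.basis hx (Module.finBasis k⟮x⟯ Fk))

theorem IsConstExt.isFF1 (h : IsConstExt k K Fk F) [IsFF1 k Fk] : IsFF1 K F := by
  obtain ⟨x, hx, -⟩ := IsFF1.exists_transcendental (K := k) (F := Fk)
  exact ⟨⟨algebraMap Fk F x, h.transcendental_map hx, h.finiteDimensional hx⟩⟩

theorem IsConstExt.finrank_eq (h : IsConstExt k K Fk F) [IsFF1 k Fk] {x : Fk}
    (hx : Transcendental k x) :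
    Module.finrank K⟮algebraMap Fk F x⟯ F = Module.finrank k⟮x⟯ Fk := by
  have := finiteDimensional_adjoin_of_transcendental hx
  rw [Module.finrank_eq_card_basis (h.basis hx (Module.finBasis k⟮x⟯ Fk)), Fintype.card_fin]

end Ext

end Fermat.Agent.S27
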