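import Fermat.Agent.S27.A.Api
import Fermat.Agent.S27.B.Basic

/-!
# S27 [B6]: semilinear automorphisms of a function field

A `SemiAut K F` is a ring automorphism of `F` preserving the constant field `K`.  It acts on
places and divisors, preserving `ord`, degrees and principal divisors.  For a constant field
extension `F = Frac (Fk ⊗[k] K)` every `σ : K ≃ₐ[k] K` lifts to `F`, fixing `Fk`.
-/

set_option autoImplicit false

noncomputable section

namespace Fermat.Agent.S27

open AlgebraicCurve Fermat.Agent.S24.FF TensorProduct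

section SemiAut

variable {K F : Type*} [Field K] [Field F] [Algebra K F]

/-- a ring automorphism of `F` which preserves the constant field `K`. -/
structure SemiAut (K F : Type*) [Field K] [Field F] [Algebra K F] where
  /-- the automorphism of `F` -/
  τ : F ≃+* F
  /-- the induced automorphism of `K` -/
  σ : K ≃+* K
  comm : ∀ c : K, τ (algebraMap K F c) = algebraMap K F (σ c)

namespace SemiAut

/-- the inverse semilinear automorphism. -/
def symm (s : SemiAut K F) : SemiAut K F where
  τ := s.τ.symm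
  σ := s.σ.symm
  comm c := by rw [RingEquiv.symm_apply_eq, s.comm, RingEquiv.apply_symm_apply]

@[simp] theorem symm_τ (s : SemiAut K F) : s.symm.τ = s.τ.symm := rfl
@[simp] theorem symm_σ (s : SemiAut K F) : s.symm.σ = s.σ.symm := rfl

/-- image of a valuation subring. -/
def mapVS (s : SemiAut K F) (A : ValuationSubring F) : ValuationSubring F :=
  A.comap (s.τ.symm : F →+* F)

theorem mem_mapVS (s : SemiAut K F) (A : ValuationSubring F) (x : F) :
    x ∈ s.mapVS A ↔ s.τ.symm x ∈ A := Iff.rfl

/-- `A ≃ τ(A)`. -/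
def vsEquiv (s : SemiAut K F) (A : ValuationSubring F) : A ≃+* s.mapVS A where
  toFun x := ⟨s.τ x, by rw [mem_mapVS, RingEquiv.symm_apply_apply]; exact x.2⟩
  invFun y := ⟨s.τ.symm y, y.2⟩
  left_inv x := by ext; simp
  right_inv y := by ext; simp
  map_mul' x y := by ext; simp
  map_add' x y := by ext; simp

@[simp] theorem coe_vsEquiv (s : SemiAut K F) (A : ValuationSubring F) (x : A) :
    ((s.vsEquiv A x : s.mapVS A) : F) = s.τ x := rfl

/-- the action on places. -/
def mapPlace (s : SemiAut K F) (v : Place K F) : Place K F where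
  toValuationSubring := s.mapVS v.toValuationSubring
  algebraMap_mem' a := by
    rw [mem_mapVS]
    have := s.symm.comm a
    rw [symm_τ] at this
    rw [this]
    exact v.algebraMap_mem' _
  ne_top' h := v.ne_top' <| by
    refine SetLike.ext fun x => ⟨fun _ => ValuationSubring.mem_top x, fun _ => ?_⟩
    have h1 : s.τ x ∈ s.mapVS v.toValuationSubring := by rw [h]; exact ValuationSubring.mem_top _
    rwa [mem_mapVS, RingEquiv.symm_apply_apply] at h1
  isPrincipalIdealRing' :=
    IsPrincipalIdealRing.of_surjective (s.vsEquiv v.toValuationSubring : _ ≃+* _)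
      (s.vsEquiv v.toValuationSubring).surjective

@[simp] theorem mapPlace_toValuationSubring (s : SemiAut K F) (v : Place K F) :
    (s.mapPlace v).toValuationSubring = s.mapVS v.toValuationSubring := rfl

theorem ord_mapPlace (s : SemiAut K F) (v : Place K F) (f : F) :
    (s.mapPlace v).ord (s.τ f) = v.ord f := by
  rcases eq_or_ne f 0 with rfl | hf
  · simp
  obtain ⟨π, hπ⟩ := IsDiscreteValuationRing.exists_irreducible v.toValuationSubring
  obtain ⟨u, hu⟩ := v.exists_unit_mul_zpow hf hπ
  set n := v.ord f with hn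
  let e : v.toValuationSubring ≃+* (s.mapPlace v).toValuationSubring :=
    s.vsEquiv v.toValuationSubring
  have hπ' : Irreducible (e π) := (MulEquiv.irreducible_iff e).mpr hπ
  have hu' : IsUnit (e (u : v.toValuationSubring)) := u.isUnit.map e
  have hcoeu : ((hu'.unit : (s.mapPlace v).toValuationSubring) : F)
      = s.τ ((u : v.toValuationSubring) : F) := by
    rw [IsUnit.unit_spec]
    rfl
  have hcoeπ : ((e π : (s.mapPlace v).toValuationSubring) : F) = s.τ (π : F) := rfl
  have key : s.τ f = ((hu'.unit : (s.mapPlace v).toValuationSubring) : F)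
      * (((e π : (s.mapPlace v).toValuationSubring) : F) ^ n) := by
    rw [hcoeu, hcoeπ, hu, map_mul, map_zpow₀]
  rw [key, (s.mapPlace v).ord_unit_smul_zpow hu'.unit hπ' n]

theorem ord_mapPlace' (s : SemiAut K F) (v : Place K F) (f : F) :
    (s.mapPlace v).ord f = v.ord (s.τ.symm f) := by
  rw [← s.ord_mapPlace v (s.τ.symm f), RingEquiv.apply_symm_apply]

theorem symm_mapPlace_mapPlace (s : SemiAut K F) (v : Place K F) :
    s.symm.mapPlace (s.mapPlace v) = v := by
  apply Place.ext
  ext x
  simp only [mapPlace_toValuationSubring, mem_mapVS, symm_τ, RingEquiv.symm_symm,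
    RingEquiv.symm_apply_apply]

theorem mapPlace_symm_mapPlace (s : SemiAut K F) (v : Place K F) :
    s.mapPlace (s.symm.mapPlace v) = v := by
  apply Place.ext
  ext x
  simp only [mapPlace_toValuationSubring, mem_mapVS, symm_τ, RingEquiv.symm_symm,
    RingEquiv.apply_symm_apply]

theorem mapPlace_injective (s : SemiAut K F) : Function.Injective s.mapPlace :=
  Function.LeftInverse.injective s.symm_mapPlace_mapPlace

theorem mapPlace_surjective (s : SemiAut K F) : Function.Surjective s.mapPlace :=
  Function.RightInverse.surjective s.mapPlace_symm_mapPlace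

/-- the action on divisors. -/
def mapDiv (s : SemiAut K F) (D : Divisor K F) : Divisor K F := D.mapDomain s.mapPlace

theorem mapDiv_apply (s : SemiAut K F) (D : Divisor K F) (v : Place K F) :
    s.mapDiv D (s.mapPlace v) = D v :=
  Finsupp.mapDomain_apply s.mapPlace_injective D v

theorem mapDiv_add (s : SemiAut K F) (D D' : Divisor K F) :
    s.mapDiv (D + D') = s.mapDiv D + s.mapDiv D' := Finsupp.mapDomain_add

theorem mapDiv_zero (s : SemiAut K F) : s.mapDiv (0 : Divisor K F) = 0 := Finsupp.mapDomain_zero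

theorem mapDiv_single (s : SemiAut K F) (v : Place K F) (n : ℤ) :
    s.mapDiv (Finsupp.single v n) = Finsupp.single (s.mapPlace v) n := Finsupp.mapDomain_single

theorem mapDiv_ext (s : SemiAut K F) {D' : Divisor K F} {D : Divisor K F}
    (h : ∀ v, D' (s.mapPlace v) = D v) : s.mapDiv D = D' := by
  ext w
  obtain ⟨v, rfl⟩ := s.mapPlace_surjective w
  rw [mapDiv_apply, h]

theorem mapDiv_zsmul (s : SemiAut K F) (n : ℤ) (D : Divisor K F) :
    s.mapDiv (n • D) = n • s.mapDiv D :=
  s.mapDiv_ext fun v => by rw [Finsupp.smul_apply, Finsupp.smul_apply, mapDiv_apply]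

theorem mapDiv_sub (s : SemiAut K F) (D D' : Divisor K F) :
    s.mapDiv (D - D') = s.mapDiv D - s.mapDiv D' :=
  s.mapDiv_ext fun v => by rw [Finsupp.sub_apply, Finsupp.sub_apply, mapDiv_apply, mapDiv_apply]

theorem mapDiv_neg (s : SemiAut K F) (D : Divisor K F) :
    s.mapDiv (-D) = - s.mapDiv D :=
  s.mapDiv_ext fun v => by rw [Finsupp.neg_apply, Finsupp.neg_apply, mapDiv_apply]

theorem mapPlace_mem_support (s : SemiAut K F) {D : Divisor K F} {v : Place K F}
    (hv : v ∈ D.support) : s.mapPlace v ∈ (s.mapDiv D).support := by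
  rw [Finsupp.mem_support_iff] at hv ⊢
  rwa [mapDiv_apply]

theorem degree_mapDiv [IsAlgClosed K] [IsFF1 K F] (s : SemiAut K F) (D : Divisor K F) :
    Divisor.degree (s.mapDiv D) = Divisor.degree D := by
  induction D using Finsupp.induction with
  | zero => simp [mapDiv_zero]
  | single_add v n D _ _ ih =>
      rw [mapDiv_add, map_add, map_add, ih, mapDiv_single, Divisor.degree_single,
        Divisor.degree_single, deg_eq_one, deg_eq_one]

/-- principal divisors are mapped to principal divisors. -/
theorem mapDiv_eq_ord (s : SemiAut K F) {D : Divisor K F} {f : F}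
    (h : ∀ v : Place K F, D v = v.ord f) (w : Place K F) : s.mapDiv D w = w.ord (s.τ f) := by
  obtain ⟨v, rfl⟩ := s.mapPlace_surjective w
  rw [mapDiv_apply, ord_mapPlace, h]

theorem mapDiv_nonneg (s : SemiAut K F) {D : Divisor K F} (h : ∀ v, 0 ≤ D v) (w : Place K F) :
    0 ≤ s.mapDiv D w := by
  obtain ⟨v, rfl⟩ := s.mapPlace_surjective w
  rw [mapDiv_apply]
  exact h v

/-- `τ` maps `L(D)` to `L(τ D)`. -/
theorem mem_riemannRochSpace_mapDiv (s : SemiAut K F) {D : Divisor K F} {f : F} :
    s.τ f ∈ riemannRochSpace (s.mapDiv D) ↔ f ∈ riemannRochSpace D := by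
  rw [mem_riemannRochSpace_iff, mem_riemannRochSpace_iff]
  constructor
  · intro h v
    have := h (s.mapPlace v)
    rwa [mapDiv_apply, ord_mapPlace, EmbeddingLike.map_eq_zero_iff] at this
  · intro h w
    obtain ⟨v, rfl⟩ := s.mapPlace_surjective w
    rw [mapDiv_apply, ord_mapPlace, EmbeddingLike.map_eq_zero_iff]
    exact h v

/-- `ell` is invariant under semilinear automorphisms. -/
theorem ell_mapDiv (s : SemiAut K F) (D : Divisor K F) : ell (s.mapDiv D) = ell D := by
  unfold ell
  let j : riemannRochSpace D ≃+ riemannRochSpace (s.mapDiv D) :=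
    { toFun := fun f => ⟨s.τ f, s.mem_riemannRochSpace_mapDiv.2 f.2⟩
      invFun := fun g => ⟨s.τ.symm g, by
        rw [← s.mem_riemannRochSpace_mapDiv, RingEquiv.apply_symm_apply]; exact g.2⟩
      left_inv := fun f => by ext; simp
      right_inv := fun g => by ext; simp
      map_add' := fun f g => by ext; simp }
  have h := rank_eq_of_equiv_equiv (R := K) (R' := K) s.σ j s.σ.bijective (fun r m => by
    ext
    simp only [j, AddEquiv.coe_mk, Equiv.coe_fn_mk, Submodule.coe_smul, Algebra.smul_def, map_mul,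
      s.comm])
  exact (congrArg Cardinal.toNat h).symm

/-- values: `(τ f)(τ v) = σ (f(v))`. -/
theorem val_mapPlace [IsAlgClosed K] [IsFF1 K F] (s : SemiAut K F) (v : Place K F) {f : F}
    (hf : 0 ≤ v.ord f) : val (s.mapPlace v) (s.τ f) = s.σ (val v f) := by
  apply val_eq_of
  rcases val_spec v hf with h | h
  · left
    rw [← s.comm, ← h]
  · right
    rw [← s.comm, ← map_sub, ord_mapPlace]
    exact h

end SemiAut

end SemiAut

section Lift

variable {k K Fk F : Type*} [Field k] [Field K] [Field Fk] [Field F]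
  [Algebra k K] [Algebra k Fk] [Algebra K F] [Algebra Fk F] [Algebra k F]
  [IsScalarTower k K F] [IsScalarTower k Fk F]

theorem IsConstExt.exists_lift_algEquiv (h : IsConstExt k K Fk F) (σ : K ≃ₐ[k] K) :
    ∃ σF : F ≃+* F, (∀ c : K, σF (algebraMap K F c) = algebraMap K F (σ c)) ∧
      ∀ f : Fk, σF (algebraMap Fk F f) = algebraMap Fk F f := by
  let φ : Fk ⊗[k] K →ₐ[k] F := constExtMap k K Fk F
  let _ : Algebra (Fk ⊗[k] K) F := φ.toRingHom.toAlgebra
  have hmap : ∀ t : Fk ⊗[k] K, algebraMap (Fk ⊗[k] K) F t = constExtMap k K Fk F t := fun _ => rfl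
  have hnzd : ∀ b : Fk ⊗[k] K, constExtMap k K Fk F b ≠ 0 → b ∈ nonZeroDivisors (Fk ⊗[k] K) := by
    intro b hb
    rw [mem_nonZeroDivisors_iff_right]
    intro x hx
    have h1 : constExtMap k K Fk F x * constExtMap k K Fk F b = 0 := by
      rw [← map_mul, hx, map_zero]
    have h2 : constExtMap k K Fk F x = 0 := (mul_eq_zero.1 h1).resolve_right hb
    exact h.inj (by rw [h2, map_zero])
  have : IsFractionRing (Fk ⊗[k] K) F :=
    { map_units := by
        rintro ⟨b, hb⟩
        rw [hmap]
        refine IsUnit.mk0 _ fun h0 => ?_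
        have hb0 : b = 0 := h.inj (by rw [map_zero]; exact h0)
        have hnt : Nontrivial (Fk ⊗[k] K) := φ.toRingHom.domain_nontrivial
        exact nonZeroDivisors.ne_zero hb hb0
      surj := by
        intro z
        obtain ⟨a, b, hb, hab⟩ := h.gen z
        exact ⟨(a, ⟨b, hnzd b hb⟩), hab⟩
      exists_of_eq := by
        intro x y hxy
        exact ⟨1, by rw [h.inj hxy]⟩ }
  let e : Fk ⊗[k] K ≃ₐ[k] Fk ⊗[k] K :=
    Algebra.TensorProduct.congr (AlgEquiv.refl : Fk ≃ₐ[k] Fk) σ
  let σF : F ≃+* F := IsFractionRing.ringEquivOfRingEquiv e.toRingEquiv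
  have hσF : ∀ t : Fk ⊗[k] K, σF (constExtMap k K Fk F t) = constExtMap k K Fk F (e t) := fun t =>
    IsFractionRing.ringEquivOfRingEquiv_algebraMap e.toRingEquiv t
  refine ⟨σF, fun c => ?_, fun f => ?_⟩
  · have h1 : ∀ c : K, algebraMap K F c = constExtMap k K Fk F ((1 : Fk) ⊗ₜ[k] c) := fun c => by
      rw [constExtMap_tmul, map_one, one_mul]
    rw [h1, hσF, h1]
    simp [e]
  · have h1 : algebraMap Fk F f = constExtMap k K Fk F (f ⊗ₜ[k] (1 : K)) := by
      rw [constExtMap_tmul, map_one, mul_one]
    rw [h1, hσF]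
    simp [e]

/-- the lift of `σ : K ≃ₐ[k] K` as a `SemiAut`. -/
theorem IsConstExt.exists_semiAut (h : IsConstExt k K Fk F) (σ : K ≃ₐ[k] K) :
    ∃ s : SemiAut K F, (∀ c : K, s.σ c = σ c) ∧ ∀ f : Fk, s.τ (algebraMap Fk F f) =
      algebraMap Fk F f := by
  obtain ⟨σF, h1, h2⟩ := h.exists_lift_algEquiv σ
  exact ⟨⟨σF, σ.toRingEquiv, h1⟩, fun _ => rfl, h2⟩

end Lift

end Fermat.Agent.S27
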