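import Fermat.Agent.S27.B.EllExtCore
import Fermat.Agent.S27.A.Riemann
import Fermat.Agent.S27.B.Places
import Fermat.Agent.S27.B.Aut
import Fermat.Agent.S27.B.Semilinear

/-!
# S27 [B3]: `L(D)` commutes with constant field extension (wiring of `EllExtCore`)
-/

set_option autoImplicit false

namespace Fermat.Agent.S27

open AlgebraicCurve Fermat.Agent.S24.FF

/-- Riemann's theorem for divisors of large degree. -/
theorem exists_ell_eq_of_degree_large (K F : Type*) [Field K] [Field F] [Algebra K F]
    [IsAlgClosed K] [CharZero K] [IsFF1 K F] :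
    ∃ c g : ℤ, ∀ D : Divisor K F, c ≤ Divisor.degree D →
      (ell D : ℤ) = Divisor.degree D + 1 - g := by
  obtain ⟨c, hc⟩ := exists_hh1_eq_zero (K := K) (F := F)
  refine ⟨c, genusFF K F, fun D hD => ?_⟩
  have h1 := ell_sub_hh1 D
  rw [hc D hD] at h1
  simpa using h1

variable {k K Fk F : Type*} [Field k] [Field K] [Field Fk] [Field F]
  [Algebra k K] [Algebra k Fk] [Algebra K F] [Algebra Fk F] [Algebra k F]
  [IsScalarTower k K F] [IsScalarTower k Fk F]
  [IsAlgClosed k] [IsAlgClosed K] [CharZero k] [CharZero K] [IsFF1 k Fk] [IsFF1 K F]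

/-- **[B3]** `l(D)` does not change under constant field extension. -/
theorem IsConstExt.ell_extDiv (h : IsConstExt k K Fk F) (D : Divisor k Fk) :
    ell (h.extDiv D) = ell D :=
  EllExtCore.ell_mapDomain_of_ext h.ext h.ord_ext h.ext_injective
    (EllExtCore.ext_range_of_transcendental h.ext (fun hx w hw => h.mem_range_ext hx w hw))
    (fun _ _ hf => h.linearIndependent_map hf)
    finite_riemannRochSpace finite_riemannRochSpace
    (exists_ell_eq_of_degree_large k Fk) (exists_ell_eq_of_degree_large K F)
    (exists_algEquiv_add_natCast k K) h.exists_lift_algEquiv D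

/-- `L(ext D)` is the `K`-span of `L(D)`. -/
theorem IsConstExt.riemannRochSpace_extDiv (h : IsConstExt k K Fk F) (D : Divisor k Fk) :
    riemannRochSpace (h.extDiv D)
      = Submodule.span K (algebraMap Fk F '' (riemannRochSpace D : Set Fk)) := by
  have hle : EllExtCore.ceW K F D ≤ riemannRochSpace (h.extDiv D) :=
    EllExtCore.ceW_le_riemannRochSpace h.ext h.ord_ext h.ext_injective
      (EllExtCore.ext_range_of_transcendental h.ext (fun hx w hw => h.mem_range_ext hx w hw)) D
  have := finite_riemannRochSpace (h.extDiv D)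
  have := finite_riemannRochSpace D
  refine (Submodule.eq_of_le_of_finrank_le hle ?_).symm
  rw [EllExtCore.finrank_ceW (fun _ _ hf => h.linearIndependent_map hf) D, ← h.ell_extDiv D]
  rfl

end Fermat.Agent.S27
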