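import Fermat.Agent.S27.A.Riemann
import Fermat.Agent.S27.B.EllExt

/-!
# S27, block [B4]: genus and `Pic⁰` under constant field extension
-/

set_option autoImplicit false

namespace Fermat.Agent.S27

open AlgebraicCurve Fermat.Agent.S24.FF TensorProduct

section Ext

variable {k K Fk F : Type*} [Field k] [Field K] [Field Fk] [Field F]
  [Algebra k K] [Algebra k Fk] [Algebra K F] [Algebra Fk F] [Algebra k F]
  [IsScalarTower k K F] [IsScalarTower k Fk F]

variable [IsAlgClosed k] [IsAlgClosed K] [CharZero k] [CharZero K] [IsFF1 k Fk] [IsFF1 K F]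

theorem IsConstExt.genusFF_eq (h : IsConstExt k K Fk F) : genusFF K F = genusFF k Fk := by
  obtain ⟨c₁, hc₁⟩ := exists_hh1_eq_zero (K := K) (F := F)
  obtain ⟨c₂, hc₂⟩ := exists_hh1_eq_zero (K := k) (F := Fk)
  have : Infinite (Place k Fk) := infinite_place
  obtain ⟨P⟩ : Nonempty (Place k Fk) := inferInstance
  let D : Divisor k Fk := Finsupp.single P (max c₁ c₂)
  have hdeg : Divisor.degree D = max c₁ c₂ := by
    rw [Divisor.degree_single, deg_eq_one]
    simp
  have h1 := ell_sub_hh1 D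
  have h2 := ell_sub_hh1 (h.extDiv D)
  rw [hc₂ D (by rw [hdeg]; exact le_max_right _ _)] at h1
  rw [hc₁ (h.extDiv D) (by rw [h.degree_extDiv, hdeg]; exact le_max_left _ _), h.ell_extDiv,
    h.degree_extDiv] at h2
  have h3 : (genusFF K F : ℤ) = genusFF k Fk := by linarith
  exact_mod_cast h3

theorem IsConstExt.pic_extDiv_add (h : IsConstExt k K Fk F) (D D' : Divisor k Fk) :
    h.extDiv (D + D') = h.extDiv D + h.extDiv D' :=
  Finsupp.mapDomain_add

theorem IsConstExt.pic_extDiv_sub (h : IsConstExt k K Fk F) (D D' : Divisor k Fk) :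
    h.extDiv (D - D') = h.extDiv D - h.extDiv D' :=
  map_sub (Finsupp.mapDomain.addMonoidHom h.ext : Divisor k Fk →+ Divisor K F) D D'

theorem IsConstExt.pic_extDiv_apply_ext (h : IsConstExt k K Fk F) (D : Divisor k Fk)
    (P : Place k Fk) : h.extDiv D (h.ext P) = D P :=
  Finsupp.mapDomain_apply h.ext_injective D P

theorem IsConstExt.pic_extDiv_apply_of_notMem (h : IsConstExt k K Fk F) (D : Divisor k Fk)
    {w : Place K F} (hw : w ∉ Set.range h.ext) : h.extDiv D w = 0 :=
  Finsupp.mapDomain_of_notMem_range D w hw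

/-- the divisor of `f ∈ Fk`, computed in `F`, is the extension of its divisor in `Fk`. -/
theorem IsConstExt.pic_ord_algebraMap (h : IsConstExt k K Fk F) {f : Fk} (hf : f ≠ 0)
    {E : Divisor k Fk} (hdeg : Divisor.degree E = 0) (hE : ∀ v : Place k Fk, E v = v.ord f)
    (w : Place K F) : h.extDiv E w = w.ord (algebraMap Fk F f) := by
  have hs : algebraMap Fk F f ≠ 0 := by
    rw [Ne, FaithfulSMul.algebraMap_eq_zero_iff]
    exact hf
  have hle : ∀ w : Place K F, h.extDiv E w - (0 : Divisor K F) w ≤ w.ord (algebraMap Fk F f) := by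
    intro w
    rw [Finsupp.zero_apply, sub_zero]
    by_cases hw : w ∈ Set.range h.ext
    · obtain ⟨P, rfl⟩ := hw
      rw [h.pic_extDiv_apply_ext, h.ord_ext, hE]
    · rw [h.pic_extDiv_apply_of_notMem E hw]
      by_cases hfr : f ∈ Set.range (algebraMap k Fk)
      · obtain ⟨a, rfl⟩ := hfr
        rw [← IsScalarTower.algebraMap_apply k Fk F, IsScalarTower.algebraMap_apply k K F,
          ord_algebraMap]
      · by_contra hneg
        push Not at hneg
        exact hw (h.mem_range_ext (transcendental_of_not_mem_range hfr) w (Or.inl hneg))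
  have := ord_eq_of_mem_riemannRochSpace (B := (0 : Divisor K F)) (E := h.extDiv E)
    (by rw [h.degree_extDiv, hdeg, map_zero]) hs hle w
  rw [this, Finsupp.zero_apply, sub_zero]

theorem IsConstExt.pic_cls_extDiv_congr (h : IsConstExt k K Fk F) {D D' : Divisor k Fk}
    (hD : Divisor.degree D = 0) (hD' : Divisor.degree D' = 0) (hc : cls D = cls D') :
    cls (h.extDiv D) = cls (h.extDiv D') := by
  obtain ⟨f, hf, hfv⟩ := (cls_eq_iff hD hD').mp hc
  rw [cls_eq_iff (by rw [h.degree_extDiv, hD]) (by rw [h.degree_extDiv, hD'])]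
  refine ⟨algebraMap Fk F f, ?_, ?_⟩
  · rw [Ne, FaithfulSMul.algebraMap_eq_zero_iff]
    exact hf
  · intro w
    have h1 := h.pic_ord_algebraMap hf (E := D - D') (by rw [map_sub, hD, hD', sub_zero])
      (fun v => by rw [Finsupp.sub_apply]; exact hfv v) w
    rw [← h1, h.pic_extDiv_sub, Finsupp.sub_apply]

theorem IsConstExt.pic_cls_eq_zero_of_extDiv (h : IsConstExt k K Fk F) {D : Divisor k Fk}
    (hD : Divisor.degree D = 0) (hc : cls (h.extDiv D) = 0) : cls D = 0 := by
  obtain ⟨f', hf', hfv⟩ := (cls_eq_zero_iff (by rw [h.degree_extDiv, hD])).mp hc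
  -- `f'⁻¹ ∈ L(extDiv D)`
  have hmem : f'⁻¹ ∈ riemannRochSpace (h.extDiv D) := by
    rw [mem_riemannRochSpace_iff]
    intro w
    right
    rw [w.ord_inv, hfv w]
  have hfin := finite_riemannRochSpace (h.extDiv D)
  have hpos : 0 < ell (h.extDiv D) := by
    unfold ell
    rw [Module.finrank_pos_iff_exists_ne_zero]
    exact ⟨⟨f'⁻¹, hmem⟩, fun h0 => inv_ne_zero hf' (congrArg Subtype.val h0)⟩
  rw [h.ell_extDiv] at hpos
  have hfin' := finite_riemannRochSpace D
  unfold ell at hpos
  rw [Module.finrank_pos_iff_exists_ne_zero] at hpos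
  obtain ⟨⟨f, hfmem⟩, hf0⟩ := hpos
  have hf : f ≠ 0 := fun h0 => hf0 (Subtype.ext h0)
  rw [mem_riemannRochSpace_iff] at hfmem
  have hord := ord_eq_of_mem_riemannRochSpace (B := D) (E := (0 : Divisor k Fk))
    (by rw [map_zero, hD]) hf (fun v => by
      rw [Finsupp.zero_apply, zero_sub]
      exact (hfmem v).resolve_left hf)
  rw [cls_eq_zero_iff hD]
  refine ⟨f⁻¹, inv_ne_zero hf, fun v => ?_⟩
  rw [v.ord_inv, hord v, Finsupp.zero_apply, zero_sub, neg_neg]

theorem IsConstExt.exists_pic0Map (h : IsConstExt k K Fk F) :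
    ∃ ψ : Pic0 k Fk →+ Pic0 K F, Function.Injective ψ ∧
      ∀ D : Divisor k Fk, Divisor.degree D = 0 → ψ (cls D) = cls (h.extDiv D) := by
  choose rep hrep_deg hrep_cls using fun c : Pic0 k Fk => cls_surjective c
  have hkey : ∀ D : Divisor k Fk, Divisor.degree D = 0 →
      cls (h.extDiv (rep (cls D))) = cls (h.extDiv D) := fun D hD =>
    h.pic_cls_extDiv_congr (hrep_deg _) hD (hrep_cls _)
  let ψ : Pic0 k Fk →+ Pic0 K F := AddMonoidHom.mk' (fun c => cls (h.extDiv (rep c))) (by
    intro a b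
    have h1 : cls (rep a + rep b) = a + b := by
      rw [cls_add (hrep_deg a) (hrep_deg b), hrep_cls, hrep_cls]
    have h2 := hkey (rep a + rep b) (by rw [map_add, hrep_deg, hrep_deg, add_zero])
    rw [h1] at h2
    rw [h2, h.pic_extDiv_add, cls_add (by rw [h.degree_extDiv, hrep_deg])
      (by rw [h.degree_extDiv, hrep_deg])])
  refine ⟨ψ, ?_, fun D hD => hkey D hD⟩
  rw [injective_iff_map_eq_zero]
  intro c hc
  have h1 : cls (h.extDiv (rep c)) = 0 := hc
  rw [← hrep_cls c]
  exact h.pic_cls_eq_zero_of_extDiv (hrep_deg c) h1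

end Ext

end Fermat.Agent.S27
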