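import Fermat.Agent.S27.B.Descend
import Fermat.Agent.S27.B.Pic

/-!
# S27 [B7]: `card_torsion_eq` (wiring of `B/Descend.lean` and `B/Pic.lean`)
-/

set_option autoImplicit false

namespace Fermat.Agent.S27

open AlgebraicCurve Fermat.Agent.S24.FF TensorProduct

variable {k K Fk F : Type*} [Field k] [Field K] [Field Fk] [Field F]
  [Algebra k K] [Algebra k Fk] [Algebra K F] [Algebra Fk F] [Algebra k F]
  [IsScalarTower k K F] [IsScalarTower k Fk F]
variable [IsAlgClosed k] [IsAlgClosed K] [CharZero k] [CharZero K] [IsFF1 k Fk] [IsFF1 K F]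

theorem IsConstExt.card_torsion_eq (h : IsConstExt k K Fk F) (n : ℕ)
    (hfin : Finite (Pic0.torsion K F n)) :
    Nat.card (Pic0.torsion k Fk n) = Nat.card (Pic0.torsion K F n) := by
  obtain ⟨ψ, hinj, hψ⟩ := h.exists_pic0Map
  exact h.card_torsion_eq_of_pic0Map n hfin ψ hinj hψ

end Fermat.Agent.S27
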