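/-
S27 [B0]: the tensor product of two domains over an algebraically closed field is a domain.
-/
import Mathlib

set_option autoImplicit false

open scoped TensorProduct

namespace Fermat.Agent.S27

/-- A nontrivial finitely generated algebra over an algebraically closed field has a `k`-point. -/
theorem td_exists_algHom (k A : Type*) [Field k] [IsAlgClosed k] [CommRing A] [Nontrivial A]
    [Algebra k A] [Algebra.FiniteType k A] : Nonempty (A →ₐ[k] k) := by
  obtain ⟨m, hm⟩ := Ideal.exists_maximal A
  let _ : Field (A ⧸ m) := Ideal.Quotient.field m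
  have : Algebra.FiniteType k (A ⧸ m) :=
    Algebra.FiniteType.of_surjective (Ideal.Quotient.mkₐ k m) (Ideal.Quotient.mkₐ_surjective k m)
  have : Module.Finite k (A ⧸ m) := finite_of_finite_type_of_isJacobsonRing k (A ⧸ m)
  have hbij : Function.Bijective (algebraMap k (A ⧸ m)) :=
    IsAlgClosed.algebraMap_bijective_of_isIntegral
  let e : k ≃ₐ[k] (A ⧸ m) := AlgEquiv.ofBijective (Algebra.ofId k (A ⧸ m)) hbij
  exact ⟨e.symm.toAlgHom.comp (Ideal.Quotient.mkₐ k m)⟩

/-- A finitely generated domain over an algebraically closed field has a `k`-point at which a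
given nonzero function does not vanish. -/
theorem td_exists_algHom_ne_zero (k A : Type*) [Field k] [IsAlgClosed k] [CommRing A] [IsDomain A]
    [Algebra k A] [Algebra.FiniteType k A] (f : A) (hf : f ≠ 0) :
    ∃ φ : A →ₐ[k] k, φ f ≠ 0 := by
  have : Nontrivial (Localization.Away f) :=
    (IsLocalization.injective (Localization.Away f)
      (powers_le_nonZeroDivisors_of_noZeroDivisors hf)).nontrivial
  have : Algebra.FiniteType A (Localization.Away f) :=
    IsLocalization.finiteType_of_monoid_fg (Submonoid.powers f) _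
  have : Algebra.FiniteType k (Localization.Away f) := Algebra.FiniteType.trans (S := A) ‹_› ‹_›
  obtain ⟨ψ⟩ := td_exists_algHom k (Localization.Away f)
  refine ⟨ψ.comp (IsScalarTower.toAlgHom k A (Localization.Away f)), ?_⟩
  have hu : IsUnit (algebraMap A (Localization.Away f) f) := IsLocalization.Away.algebraMap_isUnit f
  exact (hu.map ψ).ne_zero

/-- evaluation at a `k`-point of `A`. -/
noncomputable def tdEval {k A : Type*} (B : Type*) [Field k] [CommRing A] [Algebra k A] [CommRing B]
    [Algebra k B] (φ : A →ₐ[k] k) : A ⊗[k] B →ₐ[k] B :=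
  (Algebra.TensorProduct.lid k B).toAlgHom.comp (Algebra.TensorProduct.map φ (AlgHom.id k B))

theorem tdEval_tmul {k A B : Type*} [Field k] [CommRing A] [Algebra k A] [CommRing B]
    [Algebra k B] (φ : A →ₐ[k] k) (a : A) (b : B) : tdEval B φ (a ⊗ₜ b) = φ a • b := by
  simp [tdEval]

theorem td_repr_eval {k A B ι : Type*} [Field k] [CommRing A] [Algebra k A] [CommRing B]
    [Algebra k B] (b : Module.Basis ι k B) (φ : A →ₐ[k] k) (z : A ⊗[k] B) (i : ι) :
    b.repr (tdEval B φ z) i = φ ((Algebra.TensorProduct.basis A b).repr z i) := by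
  induction z using TensorProduct.induction_on with
  | zero => simp
  | tmul a β =>
    rw [tdEval_tmul, Algebra.TensorProduct.basis_repr_tmul]
    simp
  | add x y hx hy =>
    simp only [map_add, Finsupp.add_apply, hx, hy]

/-- The finitely generated case. -/
theorem td_mul_eq_zero_of_finiteType (k A B : Type*) [Field k] [IsAlgClosed k] [CommRing A]
    [IsDomain A] [Algebra k A] [Algebra.FiniteType k A] [CommRing B] [IsDomain B] [Algebra k B]
    (z z' : A ⊗[k] B) (h : z * z' = 0) : z = 0 ∨ z' = 0 := by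
  by_contra hcon
  push Not at hcon
  obtain ⟨hz, hz'⟩ := hcon
  let b := Module.Basis.ofVectorSpace k B
  let bA := Algebra.TensorProduct.basis A b
  have h1 : bA.repr z ≠ 0 := by simpa using hz
  have h2 : bA.repr z' ≠ 0 := by simpa using hz'
  obtain ⟨i, hi⟩ := Finsupp.ne_iff.1 h1
  obtain ⟨j, hj⟩ := Finsupp.ne_iff.1 h2
  simp only [Finsupp.coe_zero, Pi.zero_apply] at hi hj
  obtain ⟨φ, hφ⟩ := td_exists_algHom_ne_zero k A _ (mul_ne_zero hi hj)
  rw [map_mul] at hφ
  have h3 : tdEval B φ z * tdEval B φ z' = 0 := by rw [← map_mul, h, map_zero]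
  rcases mul_eq_zero.1 h3 with h4 | h4
  · have := td_repr_eval b φ z i
    rw [h4] at this
    simp only [map_zero, Finsupp.coe_zero, Pi.zero_apply] at this
    exact hφ (by rw [← this, zero_mul])
  · have := td_repr_eval b φ z' j
    rw [h4] at this
    simp only [map_zero, Finsupp.coe_zero, Pi.zero_apply] at this
    exact hφ (by rw [← this, mul_zero])

/-- Every element of `A ⊗ B` comes from `A₀ ⊗ B` for a finitely generated subalgebra `A₀`
containing a given finite set. -/
theorem td_exists_lift (k A B : Type*) [Field k] [CommRing A] [Algebra k A] [CommRing B]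
    [Algebra k B] (z : A ⊗[k] B) :
    ∃ s : Finset A, ∀ A₀ : Subalgebra k A, (s : Set A) ⊆ A₀ →
      ∃ z₀ : A₀ ⊗[k] B, Algebra.TensorProduct.map A₀.val (AlgHom.id k B) z₀ = z := by
  classical
  obtain ⟨S, hS⟩ := TensorProduct.exists_finset z
  refine ⟨S.image Prod.fst, fun A₀ hA₀ => ?_⟩
  refine ⟨∑ x ∈ S.attach, (⟨x.1.1, hA₀ (by
    simp only [Finset.coe_image, Set.mem_image, Finset.mem_coe]
    exact ⟨x.1, x.2, rfl⟩)⟩ : A₀) ⊗ₜ[k] x.1.2, ?_⟩
  rw [map_sum, hS, ← Finset.sum_attach S]
  refine Finset.sum_congr rfl fun x _ => ?_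
  simp

theorem isDomain_tensorProduct_of_isAlgClosed (k A B : Type*) [Field k] [IsAlgClosed k]
    [CommRing A] [IsDomain A] [Algebra k A] [CommRing B] [IsDomain B] [Algebra k B] :
    IsDomain (A ⊗[k] B) := by
  classical
  have hnt : Nontrivial (A ⊗[k] B) := inferInstance
  have hnzd : NoZeroDivisors (A ⊗[k] B) := by
    refine ⟨fun {z z'} h => ?_⟩
    obtain ⟨s, hs⟩ := td_exists_lift k A B z
    obtain ⟨s', hs'⟩ := td_exists_lift k A B z'
    let A₀ : Subalgebra k A := Algebra.adjoin k ((s ∪ s' : Finset A) : Set A)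
    have hsub : ((s ∪ s' : Finset A) : Set A) ⊆ A₀ := Algebra.subset_adjoin
    obtain ⟨z₀, hz₀⟩ := hs A₀ (fun x hx => hsub (by simp [Finset.mem_coe.1 hx]))
    obtain ⟨z₀', hz₀'⟩ := hs' A₀ (fun x hx => hsub (by simp [Finset.mem_coe.1 hx]))
    have : Algebra.FiniteType k A₀ :=
      (Subalgebra.fg_iff_finiteType A₀).1 ⟨_, rfl⟩
    have hinj : Function.Injective (Algebra.TensorProduct.map A₀.val (AlgHom.id k B)) := by
      have := Module.Flat.rTensor_preserves_injective_linearMap (M := B) A₀.val.toLinearMap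
        Subtype.val_injective
      intro x y hxy
      exact this hxy
    have h0 : z₀ * z₀' = 0 := by
      apply hinj
      rw [map_mul, hz₀, hz₀', h, map_zero]
    rcases td_mul_eq_zero_of_finiteType k A₀ B z₀ z₀' h0 with h1 | h1
    · left; rw [← hz₀, h1, map_zero]
    · right; rw [← hz₀', h1, map_zero]
  exact { hnt, hnzd.to_isCancelMulZero with }

end Fermat.Agent.S27
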