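import Fermat.Agent.S27.Defs
import Fermat.Agent.S27.B.TensorDomain

/-!
# S27 [B10]: the complexification `Frac (Fk ⊗[k] ℂ)` is a constant field extension
-/

set_option autoImplicit false

universe u v w

namespace Fermat.Agent.S27

open TensorProduct

/-- A field `Fc` which is a fraction field of `Fk ⊗[k] K` (through `φ`) carries the structure of a
constant field extension. -/
theorem exists_constExt_of_ringHom (k : Type u) (Fk : Type v) (K : Type w) [Field k] [Field Fk]
    [Field K] [Algebra k Fk] [Algebra k K] (Fc : Type*) [Field Fc] (φ : Fk ⊗[k] K →+* Fc)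
    (hinj : Function.Injective φ) (hgen : ∀ z : Fc, ∃ a b : Fk ⊗[k] K, φ b ≠ 0 ∧ z * φ b = φ a) :
    ∃ (_ : Algebra K Fc) (_ : Algebra Fk Fc)
      (_ : Algebra k Fc) (_ : IsScalarTower k K Fc) (_ : IsScalarTower k Fk Fc),
      IsConstExt k K Fk Fc := by
  let iK : Algebra K Fc :=
    (φ.comp (Algebra.TensorProduct.includeRight : K →ₐ[k] Fk ⊗[k] K).toRingHom).toAlgebra
  let iFk : Algebra Fk Fc :=
    (φ.comp (Algebra.TensorProduct.includeLeft : Fk →ₐ[k] Fk ⊗[k] K).toRingHom).toAlgebra
  let ik : Algebra k Fc := (φ.comp (algebraMap k (Fk ⊗[k] K))).toAlgebra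
  have hK : ∀ c : K, algebraMap K Fc c = φ ((1 : Fk) ⊗ₜ[k] c) := fun c => rfl
  have hFk : ∀ f : Fk, algebraMap Fk Fc f = φ (f ⊗ₜ[k] (1 : K)) := fun f => rfl
  have hk : ∀ a : k, algebraMap k Fc a = φ (algebraMap k (Fk ⊗[k] K) a) := fun a => rfl
  have t1 : IsScalarTower k K Fc :=
    IsScalarTower.of_algebraMap_eq (R := k) (S := K) (A := Fc) (fun a => by
      rw [hk, hK, Algebra.TensorProduct.algebraMap_apply, Algebra.algebraMap_eq_smul_one,
        Algebra.algebraMap_eq_smul_one, TensorProduct.smul_tmul])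
  have t2 : IsScalarTower k Fk Fc :=
    IsScalarTower.of_algebraMap_eq (R := k) (S := Fk) (A := Fc) (fun a => by
      rw [hk, hFk, Algebra.TensorProduct.algebraMap_apply])
  have key : ∀ z : Fk ⊗[k] K, constExtMap k K Fk Fc z = φ z := by
    intro z
    induction z using TensorProduct.induction_on with
    | zero => simp
    | tmul f c =>
      rw [constExtMap, Algebra.TensorProduct.productMap_apply_tmul]
      change algebraMap Fk Fc f * algebraMap K Fc c = _
      rw [hFk, hK, ← map_mul, Algebra.TensorProduct.tmul_mul_tmul, mul_one, one_mul]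
    | add x y hx hy => rw [map_add, map_add, hx, hy]
  refine ⟨iK, iFk, ik, t1, t2, ⟨?_, ?_⟩⟩
  · intro x y hxy
    rw [key, key] at hxy
    exact hinj hxy
  · intro z
    obtain ⟨a, b, hb, h⟩ := hgen z
    exact ⟨a, b, by rwa [key], by rw [key, key, h]⟩

/-- General form of [B10]: `Frac (Fk ⊗[k] K)` is a constant field extension of `Fk/k`. -/
theorem exists_constExt (k : Type u) (Fk : Type v) (K : Type w) [Field k] [Field Fk] [Field K]
    [Algebra k Fk] [IsAlgClosed k] [Algebra k K] :
    ∃ (Fc : Type (max v w)) (_ : Field Fc) (_ : Algebra K Fc) (_ : Algebra Fk Fc)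
      (_ : Algebra k Fc) (_ : IsScalarTower k K Fc) (_ : IsScalarTower k Fk Fc),
      IsConstExt k K Fk Fc := by
  have : IsDomain (Fk ⊗[k] K) := isDomain_tensorProduct_of_isAlgClosed k Fk K
  refine ⟨FractionRing (Fk ⊗[k] K), inferInstance,
    exists_constExt_of_ringHom k Fk K (FractionRing (Fk ⊗[k] K))
      (algebraMap (Fk ⊗[k] K) (FractionRing (Fk ⊗[k] K)))
      (IsFractionRing.injective _ _) ?_⟩
  intro z
  obtain ⟨a, b, hb, rfl⟩ := IsFractionRing.div_surjective (A := Fk ⊗[k] K) z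
  have hb' : algebraMap (Fk ⊗[k] K) (FractionRing (Fk ⊗[k] K)) b ≠ 0 := by
    intro h0
    have : b = 0 := IsFractionRing.injective (Fk ⊗[k] K) (FractionRing (Fk ⊗[k] K))
      (by rw [h0, map_zero])
    exact (mem_nonZeroDivisors_iff_ne_zero.1 hb) this
  exact ⟨a, b, hb', div_mul_cancel₀ _ hb'⟩

/-- [B10] complexification. -/
theorem exists_complexification (k : Type u) (Fk : Type v) [Field k] [Field Fk] [Algebra k Fk]
    [IsAlgClosed k] [Algebra k ℂ] :
    ∃ (Fc : Type v) (_ : Field Fc) (_ : Algebra ℂ Fc) (_ : Algebra Fk Fc) (_ : Algebra k Fc)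
      (_ : IsScalarTower k ℂ Fc) (_ : IsScalarTower k Fk Fc), IsConstExt k ℂ Fk Fc :=
  exists_constExt k Fk ℂ

end Fermat.Agent.S27
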