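import Fermat.Agent.S27.B.DescentAux
import Fermat.Agent.S27.B.Places

/-!
# S27 block [B8]: descent of `F/K` to a countable algebraically closed subfield
-/

set_option autoImplicit false

universe u v

namespace Fermat.Agent.S27

open AlgebraicCurve Fermat.Agent.S24.FF

theorem exists_descentData (K : Type u) (F : Type v) [Field K] [Field F] [Algebra K F]
    [IsAlgClosed K] [CharZero K] [IsFF1 K F] (T : Finset (Place K F)) :
    ∃ d : DescentData K F, ∀ w ∈ T, w ∈ Set.range d.isConstExt.ext := by
  obtain ⟨d, x, hx, h⟩ := exists_descentData_aux K F T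
  exact ⟨d, fun w hw => d.isConstExt.mem_range_ext hx w (h w hw)⟩

end Fermat.Agent.S27
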