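import Fermat.Agent.S27.B.Embed
import Fermat.Agent.S27.B.Complexify
import Fermat.Agent.S27.B.CardTorsion
import Fermat.Agent.S27.B.DescentData

/-!
# S27 [B11]: the Lefschetz principle: S27 for all `K` from S27 over `ℂ`

Final imports (replace the skeleton import): `B/Embed` (there the name is
`B.exists_ringHom_complex`), `B/Complexify`, `B/Basic`, `B/Places`, `B/Pic`, `B/Descend`,
`B/DescentData`, `A/Api`.
-/

set_option autoImplicit false

universe u v

namespace Fermat.Agent.S27

open AlgebraicCurve Fermat.Agent.S24.FF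

/-- Step 1: over the countable model the torsion has the expected cardinality. -/
theorem lef_card_torsion_descentData
    (hC : ∀ (Fc : Type v) [Field Fc] [Algebra ℂ Fc] [IsFF1 ℂ Fc] (n : ℕ), 0 < n →
      Nat.card (Pic0.torsion ℂ Fc n) = n ^ (2 * genusFF ℂ Fc))
    (K : Type u) (F : Type v) [Field K] [Field F] [Algebra K F]
    [IsAlgClosed K] [CharZero K] [IsFF1 K F] (n : ℕ) (hn : 0 < n) (d : DescentData K F) :
    Nat.card (Pic0.torsion d.k d.Fk n) = n ^ (2 * genusFF K F) := by
  obtain ⟨φ⟩ := B.exists_ringHom_complex d.k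
  let _ : Algebra d.k ℂ := φ.toAlgebra
  obtain ⟨Fc, _, _, _, _, _, _, hc⟩ := exists_complexification d.k d.Fk
  have : IsFF1 ℂ Fc := hc.isFF1
  have h1 := hC Fc n hn
  have hfin : Finite (Pic0.torsion ℂ Fc n) :=
    Nat.finite_of_card_ne_zero (by rw [h1]; exact pow_ne_zero _ hn.ne')
  rw [hc.card_torsion_eq n hfin, h1, hc.genusFF_eq, d.isConstExt.genusFF_eq]

/-- Step 2: the torsion is finite. -/
theorem lef_finite_torsion
    (hC : ∀ (Fc : Type v) [Field Fc] [Algebra ℂ Fc] [IsFF1 ℂ Fc] (n : ℕ), 0 < n →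
      Nat.card (Pic0.torsion ℂ Fc n) = n ^ (2 * genusFF ℂ Fc))
    (K : Type u) (F : Type v) [Field K] [Field F] [Algebra K F]
    [IsAlgClosed K] [CharZero K] [IsFF1 K F] (n : ℕ) (hn : 0 < n) :
    Finite (Pic0.torsion K F n) := by
  classical
  by_contra hinf
  rw [not_finite_iff_infinite] at hinf
  obtain ⟨s, hs⟩ := Infinite.exists_subset_card_eq (Pic0.torsion K F n)
    (n ^ (2 * genusFF K F) + 1)
  choose D hD0 hDc using fun c : Pic0.torsion K F n => cls_surjective (c : Pic0 K F)
  obtain ⟨d, hd⟩ := exists_descentData K F (s.biUnion fun c => (D c).support)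
  have hex : ∀ c : s, ∃ D₀ : Divisor d.k d.Fk, d.isConstExt.extDiv D₀ = D c := fun c =>
    d.isConstExt.exists_extDiv_eq (D c) fun w hw =>
      hd w (Finset.mem_biUnion.2 ⟨c, c.2, hw⟩)
  choose D₀ hD₀ using hex
  have hdeg : ∀ c : s, Divisor.degree (D₀ c) = 0 := fun c => by
    rw [← d.isConstExt.degree_extDiv, hD₀, hD0]
  obtain ⟨ψ, hψ, hψc⟩ := d.isConstExt.exists_pic0Map
  have hval : ∀ c : s, ψ (cls (D₀ c)) = ((c : Pic0.torsion K F n) : Pic0 K F) := fun c => by
    rw [hψc _ (hdeg c), hD₀, hDc]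
  have htor : ∀ c : s, cls (D₀ c) ∈ Pic0.torsion d.k d.Fk n := fun c => by
    rw [Pic0.mem_torsion]
    apply hψ
    rw [map_zsmul, hval, map_zero]
    exact Pic0.mem_torsion.1 (c : Pic0.torsion K F n).2
  have hcard := lef_card_torsion_descentData hC K F n hn d
  have hfin : Finite (Pic0.torsion d.k d.Fk n) :=
    Nat.finite_of_card_ne_zero (by rw [hcard]; exact pow_ne_zero _ hn.ne')
  have hinj : Function.Injective
      (fun c : s => (⟨cls (D₀ c), htor c⟩ : Pic0.torsion d.k d.Fk n)) := by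
    intro c c' h
    have h' : cls (D₀ c) = cls (D₀ c') := congrArg Subtype.val h
    have h2 := congrArg ψ h'
    rw [hval, hval] at h2
    exact Subtype.ext (Subtype.ext h2)
  have hle := Nat.card_le_card_of_injective _ hinj
  rw [hcard, Nat.card_eq_fintype_card, Fintype.card_coe, hs] at hle
  omega

/-- [B11] the Lefschetz principle for S27. -/
theorem card_torsion_of_complex
    (hC : ∀ (Fc : Type v) [Field Fc] [Algebra ℂ Fc] [IsFF1 ℂ Fc] (n : ℕ), 0 < n →
      Nat.card (Pic0.torsion ℂ Fc n) = n ^ (2 * genusFF ℂ Fc))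
    (K : Type u) (F : Type v) [Field K] [Field F] [Algebra K F]
    [IsAlgClosed K] [CharZero K] [IsFF1 K F] (n : ℕ) (hn : 0 < n) :
    Nat.card (Pic0.torsion K F n) = n ^ (2 * genusFF K F) := by
  obtain ⟨d, -⟩ := exists_descentData K F ∅
  rw [← d.isConstExt.card_torsion_eq n (lef_finite_torsion hC K F n hn)]
  exact lef_card_torsion_descentData hC K F n hn d

end Fermat.Agent.S27
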