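import Fermat.Agent.S27.A.Riemann
import Fermat.Agent.S27.B.Places
import Fermat.Agent.S27.B.Semilinear
import Fermat.Agent.S27.B.Aut

/-!
# S27 [B7]: torsion classes descend under constant field extensions

`F/K` a constant field extension of `Fk/k` (`k ⊆ K` algebraically closed of characteristic `0`).
If `J_K[n]` is finite, then every class in `J_K[n]` is the class of a divisor extended from `Fk`
(finite orbit argument under `Aut(K/k)`).
-/

set_option autoImplicit false
set_option linter.unusedSectionVars false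

namespace Fermat.Agent.S27

open AlgebraicCurve Fermat.Agent.S24.FF TensorProduct

section General

variable {K F : Type*} [Field K] [Field F] [Algebra K F] [IsAlgClosed K] [CharZero K] [IsFF1 K F]

theorem desc_degree_single_one (Q : Place K F) :
    Divisor.degree (Finsupp.single Q (1 : ℤ)) = 1 := by
  rw [Divisor.degree_single, deg_eq_one]; norm_num

/-- `ell D ≤ ell (D - Q) + 1`. -/
theorem desc_ell_le_ell_sub_single_add_one (D : Divisor K F) (Q : Place K F) :
    ell D ≤ ell (D - Finsupp.single Q 1) + 1 := by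
  have h1 := ell_sub_hh1 D
  have h2 := ell_sub_hh1 (D - Finsupp.single Q 1)
  have h3 : hh1 D ≤ hh1 (D - Finsupp.single Q 1) := by
    apply hh1_antitone
    intro v
    rw [Finsupp.sub_apply]
    have : 0 ≤ (Finsupp.single Q (1 : ℤ)) v := by
      classical
      rw [Finsupp.single_apply]; split_ifs <;> norm_num
    omega
  rw [map_sub, desc_degree_single_one] at h2
  omega

/-- if `Q` is not a base point of `L(D)` then `ell (D - Q) < ell D`. -/
theorem desc_ell_sub_single_lt (D : Divisor K F) (Q : Place K F) {f : F} (hf0 : f ≠ 0)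
    (hf : f ∈ riemannRochSpace D) (hQ : Q.ord f = - D Q) :
    ell (D - Finsupp.single Q 1) < ell D := by
  have := finite_riemannRochSpace D
  unfold ell
  apply Submodule.finrank_lt_finrank_of_lt
  refine lt_of_le_of_ne ?_ ?_
  · intro g hg
    rw [mem_riemannRochSpace_iff] at hg ⊢
    intro v
    rcases hg v with h | h
    · exact Or.inl h
    · right
      rw [Finsupp.sub_apply] at h
      have : 0 ≤ (Finsupp.single Q (1 : ℤ)) v := by
        classical
        rw [Finsupp.single_apply]; split_ifs <;> norm_num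
      omega
  · intro heq
    rw [← heq, mem_riemannRochSpace_iff] at hf
    rcases hf Q with h | h
    · exact hf0 h
    · rw [Finsupp.sub_apply, Finsupp.single_eq_same] at h
      omega

/-- for an infinite set `S` of places and `ell D ≥ 1` there is `Q ∈ S` with
`ell (D - Q) + 1 = ell D`. -/
theorem desc_exists_ell_sub_single (D : Divisor K F) (hD : 1 ≤ ell D) {S : Set (Place K F)}
    (hS : S.Infinite) : ∃ Q ∈ S, ell (D - Finsupp.single Q 1) + 1 = ell D := by
  classical
  have hne : riemannRochSpace D ≠ ⊥ := by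
    intro h
    unfold ell at hD
    rw [h, finrank_bot] at hD
    omega
  obtain ⟨f, hf, hf0⟩ := Submodule.exists_mem_ne_zero_of_ne_bot hne
  obtain ⟨Q, hQS, hQ⟩ := hS.exists_notMem_finset ((GAL.FF.divOf K f).support ∪ D.support)
  rw [Finset.mem_union, not_or, Finsupp.notMem_support_iff, Finsupp.notMem_support_iff,
    GAL.FF.divOf_apply] at hQ
  refine ⟨Q, hQS, ?_⟩
  have h1 := desc_ell_le_ell_sub_single_add_one D Q
  have h2 := desc_ell_sub_single_lt D Q hf0 hf (by rw [hQ.1, hQ.2, neg_zero])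
  omega

end General

section Ext

variable {k K Fk F : Type*} [Field k] [Field K] [Field Fk] [Field F]
  [Algebra k K] [Algebra k Fk] [Algebra K F] [Algebra Fk F] [Algebra k F]
  [IsScalarTower k K F] [IsScalarTower k Fk F]
  [IsAlgClosed k] [IsAlgClosed K] [CharZero k] [CharZero K] [IsFF1 k Fk] [IsFF1 K F]

theorem IsConstExt.desc_extDiv_add (h : IsConstExt k K Fk F) (D D' : Divisor k Fk) :
    h.extDiv (D + D') = h.extDiv D + h.extDiv D' := Finsupp.mapDomain_add

theorem IsConstExt.desc_extDiv_single (h : IsConstExt k K Fk F) (P : Place k Fk) (n : ℤ) :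
    h.extDiv (Finsupp.single P n) = Finsupp.single (h.ext P) n := Finsupp.mapDomain_single

theorem IsConstExt.desc_extDiv_sub (h : IsConstExt k K Fk F) (D D' : Divisor k Fk) :
    h.extDiv (D - D') = h.extDiv D - h.extDiv D' :=
  map_sub (Finsupp.mapDomain.addMonoidHom h.ext) D D'

theorem IsConstExt.desc_infinite_range_ext (h : IsConstExt k K Fk F) :
    (Set.range h.ext).Infinite := by
  have := infinite_place (K := k) (F := Fk)
  exact Set.infinite_range_of_injective h.ext_injective

/-- every divisor can be moved by an extended divisor to a divisor with `ell = 1`. -/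
theorem IsConstExt.desc_exists_ell_eq_one (h : IsConstExt k K Fk F) (D : Divisor K F) :
    ∃ A₀ : Divisor k Fk, ell (D + h.extDiv A₀) = 1 := by
  have key : ∀ r : ℕ, 1 ≤ r → (∃ A₀ : Divisor k Fk, ell (D + h.extDiv A₀) = r) →
      ∃ A₀ : Divisor k Fk, ell (D + h.extDiv A₀) = 1 := by
    intro r hr
    induction r, hr using Nat.le_induction with
    | base => exact id
    | succ r hr ih =>
      rintro ⟨A₀, hA₀⟩
      obtain ⟨Q, ⟨P, rfl⟩, hQ⟩ := desc_exists_ell_sub_single (D + h.extDiv A₀) (by omega)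
        h.desc_infinite_range_ext
      refine ih ⟨A₀ - Finsupp.single P 1, ?_⟩
      rw [h.desc_extDiv_sub, h.desc_extDiv_single, ← add_sub_assoc]
      omega
  have := infinite_place (K := k) (F := Fk)
  obtain ⟨P₀⟩ : Nonempty (Place k Fk) := inferInstance
  let N : ℤ := genusFF K F - Divisor.degree D
  have h1 := ell_sub_hh1 (D + h.extDiv (Finsupp.single P₀ N))
  rw [map_add, h.degree_extDiv, Divisor.degree_single, deg_eq_one] at h1
  refine key _ ?_ ⟨Finsupp.single P₀ N, rfl⟩
  have h2 : (0 : ℤ) ≤ hh1 (D + h.extDiv (Finsupp.single P₀ N)) := Int.natCast_nonneg _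
  have h3 : Divisor.degree D + N * ((1 : ℕ) : ℤ) + 1 - genusFF K F = 1 := by
    simp only [N]; push_cast; ring
  rw [h3] at h1
  omega

/-- a semilinear automorphism fixing `Fk` fixes the extended places. -/
theorem IsConstExt.desc_mapPlace_ext (h : IsConstExt k K Fk F) (s : SemiAut K F)
    (hs : ∀ f : Fk, s.τ (algebraMap Fk F f) = algebraMap Fk F f) (P : Place k Fk) :
    s.mapPlace (h.ext P) = h.ext P := by
  refine (h.existsUnique_ext P).unique (fun f => ?_) (h.ord_ext P)
  rw [← hs f, s.ord_mapPlace, h.ord_ext]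

theorem IsConstExt.desc_mapDiv_extDiv (h : IsConstExt k K Fk F) (s : SemiAut K F)
    (hs : ∀ f : Fk, s.τ (algebraMap Fk F f) = algebraMap Fk F f) (A : Divisor k Fk) :
    s.mapDiv (h.extDiv A) = h.extDiv A := by
  induction A using Finsupp.induction_linear with
  | zero => simp [IsConstExt.extDiv, SemiAut.mapDiv]
  | add A B hA hB => rw [h.desc_extDiv_add, s.mapDiv_add, hA, hB]
  | single P n => rw [h.desc_extDiv_single, s.mapDiv_single, h.desc_mapPlace_ext s hs]

/-- [B7] torsion classes descend. -/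
theorem IsConstExt.torsion_descends (h : IsConstExt k K Fk F) (n : ℕ)
    (hfin : Finite (Pic0.torsion K F n)) (c : Pic0 K F) (hc : c ∈ Pic0.torsion K F n) :
    ∃ D : Divisor k Fk, Divisor.degree D = 0 ∧ cls (h.extDiv D) = c := by
  classical
  obtain ⟨D, hD0, rfl⟩ := cls_surjective c
  -- `n • D` is principal
  rw [Pic0.mem_torsion, ← cls_zsmul hD0, cls_eq_zero_iff (by rw [map_zsmul, hD0, smul_zero])] at hc
  obtain ⟨φ, hφ0, hφ⟩ := hc
  -- the effective divisor `E`
  obtain ⟨A₀, hA₀⟩ := h.desc_exists_ell_eq_one D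
  have hne : riemannRochSpace (D + h.extDiv A₀) ≠ ⊥ := by
    intro h'
    unfold ell at hA₀
    rw [h', finrank_bot] at hA₀
    omega
  obtain ⟨f, hf, hf0⟩ := Submodule.exists_mem_ne_zero_of_ne_bot hne
  set E : Divisor K F := D + h.extDiv A₀ + GAL.FF.divOf K f with hE
  have hEnonneg : ∀ v, 0 ≤ E v := by
    intro v
    exact (GAL.FF.mem_L_iff_divOf hf0).1 hf v
  -- `L(E) = K`
  have hLE : ∀ g : F, g ∈ riemannRochSpace E → g ∈ Set.range (algebraMap K F) := by
    intro g hg
    rcases eq_or_ne g 0 with rfl | hg0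
    · exact ⟨0, map_zero _⟩
    have hgf : g * f ∈ riemannRochSpace (D + h.extDiv A₀) := by
      rw [mem_riemannRochSpace_iff] at hg ⊢
      intro v
      right
      have h1 := (hg v).resolve_left hg0
      rw [hE, Finsupp.add_apply, GAL.FF.divOf_apply] at h1
      rw [v.ord_mul hg0 hf0]
      omega
    obtain ⟨a, ha⟩ := (finrank_eq_one_iff_of_nonzero' (⟨f, hf⟩ : riemannRochSpace (D + h.extDiv A₀))
      (by simpa [Subtype.ext_iff] using hf0)).1 hA₀ ⟨g * f, hgf⟩
    have ha' : a • f = g * f := congrArg Subtype.val ha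
    rw [Algebra.smul_def] at ha'
    exact ⟨a, mul_right_cancel₀ hf0 ha'⟩
  -- it suffices to show that the support of `E` consists of extended places
  suffices hsupp : ∀ w ∈ E.support, w ∈ Set.range h.ext by
    obtain ⟨E₀, hE₀⟩ := h.exists_extDiv_eq E hsupp
    have hdeg : Divisor.degree (h.extDiv (E₀ - A₀)) = 0 := by
      rw [h.desc_extDiv_sub, hE₀, hE, map_sub, map_add, map_add, GAL.FF.degree_divOf, hD0]
      ring
    refine ⟨E₀ - A₀, by rw [← h.degree_extDiv, hdeg], ?_⟩
    rw [cls_eq_iff hdeg hD0]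
    refine ⟨f, hf0, fun v => ?_⟩
    rw [h.desc_extDiv_sub, hE₀, hE]
    simp only [Finsupp.sub_apply, Finsupp.add_apply, GAL.FF.divOf_apply]
    ring
  intro w hw
  by_contra hwr
  obtain ⟨x, hx, -⟩ := IsFF1.exists_transcendental (K := k) (F := Fk)
  have hxK : Transcendental K (algebraMap Fk F x) := h.transcendental_map hx
  have hw' : ¬ (w.ord (algebraMap Fk F x) < 0 ∨
      ∃ a : k, 0 < w.ord (algebraMap Fk F x - algebraMap K F (algebraMap k K a))) :=
    fun hh => hwr (h.mem_range_ext hx w hh)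
  rw [not_or, not_lt, not_exists] at hw'
  obtain ⟨hwx, hwk⟩ := hw'
  obtain ⟨z, hz⟩ := exists_ord_sub_pos w hwx
  have hz : 0 < w.ord (algebraMap Fk F x - algebraMap K F z) := by
    rcases hz with hz | hz
    · exact absurd (hz ▸ isAlgebraic_algebraMap z) hxK
    · exact hz
  have hztr : Transcendental k z := by
    apply transcendental_of_not_mem_range
    rintro ⟨a, rfl⟩
    exact hwk a hz
  -- the automorphisms
  have hex : ∀ m : ℕ, ∃ s : SemiAut K F, s.σ z = z + m ∧
      ∀ f : Fk, s.τ (algebraMap Fk F f) = algebraMap Fk F f := by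
    intro m
    obtain ⟨σ, hσ⟩ := exists_algEquiv_add_natCast k K z hztr m
    obtain ⟨s, hs1, hs2⟩ := h.exists_semiAut σ
    exact ⟨s, by rw [hs1, hσ], hs2⟩
  choose s hsz hsF using hex
  have hdegm : ∀ m, Divisor.degree ((s m).mapDiv D) = 0 := fun m => by
    rw [(s m).degree_mapDiv, hD0]
  have htors : ∀ m, cls ((s m).mapDiv D) ∈ Pic0.torsion K F n := by
    intro m
    rw [Pic0.mem_torsion, ← cls_zsmul (hdegm m),
      cls_eq_zero_iff (by rw [map_zsmul, hdegm m, smul_zero])]
    refine ⟨(s m).τ φ, by simpa using hφ0, fun v => ?_⟩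
    rw [← (s m).mapDiv_zsmul]
    exact (s m).mapDiv_eq_ord hφ v
  obtain ⟨y, hy⟩ := Finite.exists_infinite_fiber
    (fun m : ℕ => (⟨cls ((s m).mapDiv D), htors m⟩ : Pic0.torsion K F n))
  rw [Set.infinite_coe_iff] at hy
  obtain ⟨m₀, hm₀⟩ := hy.nonempty
  -- all `τ_m E`, `m` in the fibre, are equal
  have hEm : ∀ m ∈ (fun m : ℕ => (⟨cls ((s m).mapDiv D), htors m⟩ : Pic0.torsion K F n)) ⁻¹' {y},
      (s m).mapDiv E = (s m₀).mapDiv E := by
    intro m hm
    have hcls : cls ((s m).mapDiv D) = cls ((s m₀).mapDiv D) := by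
      have h1 : (⟨cls ((s m).mapDiv D), htors m⟩ : Pic0.torsion K F n) = y := hm
      have h2 : (⟨cls ((s m₀).mapDiv D), htors m₀⟩ : Pic0.torsion K F n) = y := hm₀
      exact congrArg Subtype.val (h1.trans h2.symm)
    rw [cls_eq_iff (hdegm m) (hdegm m₀)] at hcls
    obtain ⟨g, hg0, hg⟩ := hcls
    have hfm : ∀ m, (s m).τ f ≠ 0 := fun m => by simpa using hf0
    have hEdiv : ∀ m v, (s m).mapDiv E v =
        (s m).mapDiv D v + h.extDiv A₀ v + v.ord ((s m).τ f) := by
      intro m v
      rw [hE, (s m).mapDiv_add, (s m).mapDiv_add, h.desc_mapDiv_extDiv (s m) (hsF m),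
        Finsupp.add_apply, Finsupp.add_apply,
        (s m).mapDiv_eq_ord (D := GAL.FF.divOf K f) (f := f) (fun _ => rfl) v]
    -- `G = g τ_m f / τ_{m₀} f` has divisor `τ_m E - τ_{m₀} E`
    set G : F := g * (s m).τ f * ((s m₀).τ f)⁻¹ with hG
    have hG0 : G ≠ 0 := mul_ne_zero (mul_ne_zero hg0 (hfm m)) (inv_ne_zero (hfm m₀))
    have hGord : ∀ v : Place K F, v.ord G = (s m).mapDiv E v - (s m₀).mapDiv E v := by
      intro v
      rw [hG, v.ord_mul (mul_ne_zero hg0 (hfm m)) (inv_ne_zero (hfm m₀)), v.ord_mul hg0 (hfm m),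
        v.ord_inv, hEdiv, hEdiv, ← hg v]
      ring
    -- `τ_m⁻¹ G⁻¹ ∈ L(E)`
    have hmem : (s m).τ.symm G⁻¹ ∈ riemannRochSpace E := by
      rw [← (s m).mem_riemannRochSpace_mapDiv, RingEquiv.apply_symm_apply,
        mem_riemannRochSpace_iff]
      intro v
      right
      rw [v.ord_inv, hGord]
      have := (s m₀).mapDiv_nonneg hEnonneg v
      omega
    obtain ⟨a, ha⟩ := hLE _ hmem
    have hGa : G⁻¹ = algebraMap K F ((s m).σ a) := by
      rw [← (s m).comm, ha, RingEquiv.apply_symm_apply]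
    ext v
    have h1 := hGord v
    have h2 : v.ord G⁻¹ = 0 := by rw [hGa, ord_algebraMap]
    rw [v.ord_inv] at h2
    omega
  -- the places `τ_m w` all lie in the finite support of `τ_{m₀} E` and are distinct
  have hmaps : Set.MapsTo (fun m => (s m).mapPlace w)
      ((fun m : ℕ => (⟨cls ((s m).mapDiv D), htors m⟩ : Pic0.torsion K F n)) ⁻¹' {y})
      (((s m₀).mapDiv E).support : Set (Place K F)) := by
    intro m hm
    rw [← hEm m hm]
    exact (s m).mapPlace_mem_support hw
  have hinj : Set.InjOn (fun m => (s m).mapPlace w)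
      ((fun m : ℕ => (⟨cls ((s m).mapDiv D), htors m⟩ : Pic0.torsion K F n)) ⁻¹' {y}) := by
    intro m _ m' _ hmm
    have hord : ∀ m, 0 < ((s m).mapPlace w).ord
        (algebraMap Fk F x - algebraMap K F (z + m)) := by
      intro m
      rw [← hsz m, ← (s m).comm, ← hsF m x, ← map_sub, (s m).ord_mapPlace]
      exact hz
    have h1 := hord m
    have h2 := hord m'
    simp only at hmm
    rw [hmm] at h1
    have h3 := eq_of_ord_sub_pos _ h1 h2
    exact_mod_cast add_left_cancel h3
  exact hy (Set.Finite.of_injOn hmaps hinj (Finset.finite_toSet _))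

/-- [B7] the torsion subgroups have the same cardinality, given the map `ψ` of [B4]. -/
theorem IsConstExt.card_torsion_eq_of_pic0Map (h : IsConstExt k K Fk F) (n : ℕ)
    (hfin : Finite (Pic0.torsion K F n)) (ψ : Pic0 k Fk →+ Pic0 K F)
    (hinj : Function.Injective ψ)
    (hψ : ∀ D : Divisor k Fk, Divisor.degree D = 0 → ψ (cls D) = cls (h.extDiv D)) :
    Nat.card (Pic0.torsion k Fk n) = Nat.card (Pic0.torsion K F n) := by
  have hmem : ∀ c : Pic0 k Fk, c ∈ Pic0.torsion k Fk n ↔ ψ c ∈ Pic0.torsion K F n := by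
    intro c
    rw [Pic0.mem_torsion, Pic0.mem_torsion, ← map_zsmul, map_eq_zero_iff ψ hinj]
  refine Nat.card_congr (Equiv.ofBijective
    (fun c : Pic0.torsion k Fk n => (⟨ψ c, (hmem c).1 c.2⟩ : Pic0.torsion K F n)) ⟨?_, ?_⟩)
  · intro c c' hcc
    exact Subtype.ext (hinj (congrArg Subtype.val hcc))
  · rintro ⟨c, hc⟩
    obtain ⟨D, hD, rfl⟩ := h.torsion_descends n hfin c hc
    rw [← hψ D hD] at hc
    exact ⟨⟨cls D, (hmem _).2 hc⟩, Subtype.ext (hψ D hD)⟩

end Ext

end Fermat.Agent.S27
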