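import Fermat.Agent.S27.B.DescentModel

/-!
# S27 block [B8], part 3: descent of `F/K` to a countable algebraically closed subfield
-/

set_option autoImplicit false

universe u v

namespace Fermat.Agent.S27

open AlgebraicCurve Fermat.Agent.S24.FF TensorProduct Polynomial IntermediateField

theorem dd_countable_of_isAlgebraic (k₀ k : Type u) [Field k₀] [Field k] [Algebra k₀ k]
    [Algebra.IsAlgebraic k₀ k] [Countable k₀] : Countable k := by
  rw [← Cardinal.mk_le_aleph0_iff]
  refine (Algebra.IsAlgebraic.cardinalMk_le_max k₀ k).trans ?_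
  simp

theorem dd_exists_subfield {K : Type u} [Field K] [IsAlgClosed K] [CharZero K] (S : Set K)
    (hS : S.Countable) :
    ∃ (k : Type u) (_ : Field k) (_ : Algebra k K) (_ : IsAlgClosed k) (_ : CharZero k)
      (_ : Countable k), ∀ s ∈ S, s ∈ Set.range (algebraMap k K) := by
  let k₀ : IntermediateField ℚ K := IntermediateField.adjoin ℚ S
  let k : IntermediateField k₀ K := algebraicClosure k₀ K
  have h0 : Countable k₀ := by
    rw [← Cardinal.mk_le_aleph0_iff, ← Cardinal.lift_le_aleph0.{u, 0}]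
    refine (IntermediateField.lift_cardinalMk_adjoin_le ℚ S).trans ?_
    have h1 : Cardinal.mk S ≤ Cardinal.aleph0 := Cardinal.mk_le_aleph0_iff.mpr hS.to_subtype
    simp [h1]
  have h1 : Countable k := dd_countable_of_isAlgebraic k₀ k
  have h2 : IsAlgClosed k := IsAlgClosure.isAlgClosed k₀
  have h3 : CharZero k := inferInstance
  refine ⟨k, inferInstance, inferInstance, h2, h3, h1, fun s hs => ?_⟩
  have hs0 : s ∈ k₀ := subset_adjoin ℚ S hs
  exact ⟨algebraMap k₀ k ⟨s, hs0⟩, rfl⟩

theorem exists_descentData_aux (K : Type u) (F : Type v) [Field K] [Field F] [Algebra K F]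
    [IsAlgClosed K] [CharZero K] [IsFF1 K F] (T : Finset (Place K F)) :
    ∃ d : DescentData K F, ∃ x : d.Fk, Transcendental d.k x ∧ ∀ w ∈ T,
      w.ord (algebraMap d.Fk F x) < 0 ∨
        ∃ a : d.k, 0 < w.ord (algebraMap d.Fk F x - algebraMap K F (algebraMap d.k K a)) := by
  obtain ⟨t, ht, hfd⟩ := IsFF1.exists_transcendental (K := K) (F := F)
  have hc0 : CharZero K⟮t⟯ := inferInstance
  obtain ⟨y, hy⟩ := Field.exists_primitive_element K⟮t⟯ F
  have hgen : IntermediateField.adjoin K ({t, y} : Set F) = ⊤ := by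
    have h := adjoin_adjoin_left K ({t} : Set F) ({y} : Set F)
    rw [hy, restrictScalars_top] at h
    rw [h]
    rfl
  obtain ⟨P, hP0, hP⟩ := exists_bivariate_eval₂_eq_zero (K := K) t y
  let S : Set K := Set.range (fun nm : ℕ × ℕ => (P.coeff nm.1).coeff nm.2) ∪
    (fun w => val w t) '' (T : Set (Place K F))
  have hS : S.Countable :=
    (Set.countable_range _).union ((T.finite_toSet.image _).countable)
  obtain ⟨k, _, _, _, _, _, hk⟩ := dd_exists_subfield S hS
  have hlift : P ∈ lifts (mapRingHom (algebraMap k K)) := by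
    rw [lifts_iff_coeff_lifts]
    intro n
    have h1 : P.coeff n ∈ lifts (algebraMap k K) :=
      (lifts_iff_coeff_lifts _).mpr fun m => hk _ (Or.inl ⟨(n, m), rfl⟩)
    obtain ⟨q, hq⟩ := (mem_lifts _).mp h1
    exact ⟨q, hq⟩
  obtain ⟨Q, hQ⟩ := (mem_lifts _).mp hlift
  refine dd_exists_model k ht hgen Q ?_ (hQ ▸ hP) T fun w hw _ => ?_
  · rintro rfl
    rw [Polynomial.map_zero] at hQ
    exact hP0 hQ.symm
  · obtain ⟨a, ha⟩ := hk _ (Or.inr ⟨w, hw, rfl⟩)
    exact ⟨a, ha.symm⟩

end Fermat.Agent.S27
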