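import Fermat.Agent.S27.A.Api

/-!
# S27 block [B8], part 1: a criterion for `IsConstExt`

If `k` is algebraically closed, `Fk/k` a function field, `Fk ⊆ F`, `k ⊆ K`, and some place of `F/K`
is nontrivial on `Fk`, then `Fk` and `K` are linearly disjoint over `k` inside `F`.
-/

set_option autoImplicit false

namespace Fermat.Agent.S27

open AlgebraicCurve Fermat.Agent.S24.FF TensorProduct

section Criterion

variable {k K Fk F : Type*} [Field k] [Field K] [Field Fk] [Field F]
  [Algebra k K] [Algebra k Fk] [Algebra K F] [Algebra Fk F] [Algebra k F]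
  [IsScalarTower k K F] [IsScalarTower k Fk F]

theorem dd_algebraMap_comm (a : k) :
    algebraMap Fk F (algebraMap k Fk a) = algebraMap K F (algebraMap k K a) := by
  rw [← IsScalarTower.algebraMap_apply, IsScalarTower.algebraMap_apply k K F]

/-- values at a place of `F/K`, nontrivial on `Fk`, of elements of `Fk` lie in `k`. -/
theorem dd_val_mem_range [IsAlgClosed k] [CharZero k] [IsFF1 k Fk]
    (w : Place K F) {e₀ : Fk} (he₀ : w.ord (algebraMap Fk F e₀) ≠ 0) {e : Fk}
    (he : 0 ≤ w.ord (algebraMap Fk F e)) :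
    ∃ a : k, val w (algebraMap Fk F e) = algebraMap k K a := by
  let O : ValuationSubring Fk := w.toValuationSubring.comap (algebraMap Fk F)
  have hmemO : ∀ x : Fk, x ∈ O ↔ algebraMap Fk F x ∈ w.toValuationSubring := fun x => Iff.rfl
  have hk : ∀ a : k, algebraMap k Fk a ∈ O := by
    intro a
    rw [hmemO, dd_algebraMap_comm (K := K)]
    exact mem_toValuationSubring_of_ord_nonneg w (ord_algebraMap w _).ge
  have hne : algebraMap Fk F e₀ ≠ 0 := ne_zero_of_ord_ne_zero w he₀
  have hO : O ≠ ⊤ := by
    intro htop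
    have h1 : e₀ ∈ O := htop ▸ ValuationSubring.mem_top _
    have h2 : e₀⁻¹ ∈ O := htop ▸ ValuationSubring.mem_top _
    rw [hmemO] at h1 h2
    have h3 := ord_nonneg_of_mem w h1
    have h4 := ord_nonneg_of_mem w h2
    rw [map_inv₀, w.ord_inv] at h4
    omega
  obtain ⟨v, hv⟩ := exists_place_of_valuationSubring O hk hO
  have hev : 0 ≤ v.ord e := by
    apply ord_nonneg_of_mem v
    rw [hv, hmemO]
    exact mem_toValuationSubring_of_ord_nonneg w he
  obtain ⟨a, ha⟩ := exists_ord_sub_pos v hev
  refine ⟨a, val_eq_of w ?_⟩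
  rcases ha with ha | ha
  · left
    rw [ha, dd_algebraMap_comm (K := K)]
  · right
    have hd0 : e - algebraMap k Fk a ≠ 0 := ne_zero_of_ord_ne_zero v ha.ne'
    have h1 : (e - algebraMap k Fk a)⁻¹ ∉ v.toValuationSubring := by
      rw [mem_toValuationSubring_iff v (inv_ne_zero hd0), v.ord_inv]
      omega
    rw [hv, hmemO] at h1
    have h2 : ¬ 0 ≤ w.ord (algebraMap Fk F (e - algebraMap k Fk a)⁻¹) :=
      fun h => h1 (mem_toValuationSubring_of_ord_nonneg w h)
    rw [map_inv₀, w.ord_inv, map_sub, dd_algebraMap_comm (K := K)] at h2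
    omega

/-- symmetric form of linear disjointness. -/
theorem dd_linearIndependent_of_place [IsAlgClosed k] [CharZero k] [IsFF1 k Fk]
    [IsAlgClosed K] [IsFF1 K F]
    (w : Place K F) {e₀ : Fk} (he₀ : w.ord (algebraMap Fk F e₀) ≠ 0)
    {J : Type*} {c : J → K} (hc : LinearIndependent k c) :
    LinearIndependent Fk (fun j => algebraMap K F (c j)) := by
  classical
  rw [linearIndependent_iff']
  intro s g hg
  by_contra hcon
  push Not at hcon
  obtain ⟨j₀, hj₀s, hj₀⟩ := hcon
  have hne : (s.filter fun j => g j ≠ 0).Nonempty := ⟨j₀, Finset.mem_filter.mpr ⟨hj₀s, hj₀⟩⟩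
  obtain ⟨i₀, hi₀, hmin⟩ :=
    Finset.exists_min_image _ (fun j => w.ord (algebraMap Fk F (g j))) hne
  rw [Finset.mem_filter] at hi₀
  obtain ⟨hi₀s, hi₀0⟩ := hi₀
  have hinj : Function.Injective (algebraMap Fk F) := (algebraMap Fk F).injective
  have hι0 : algebraMap Fk F (g i₀) ≠ 0 := fun h => hi₀0 (hinj (by rw [h, map_zero]))
  -- normalised coefficients
  have hreg : ∀ j ∈ s, 0 ≤ w.ord (algebraMap Fk F (g j / g i₀)) := by
    intro j hj
    rcases eq_or_ne (g j) 0 with h0 | h0
    · rw [h0, zero_div, map_zero, w.ord_zero]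
    · have hj0 : algebraMap Fk F (g j) ≠ 0 := fun h => h0 (hinj (by rw [h, map_zero]))
      rw [map_div₀, div_eq_mul_inv, w.ord_mul hj0 (inv_ne_zero hι0), w.ord_inv]
      have := hmin j (Finset.mem_filter.mpr ⟨hj, h0⟩)
      omega
  have hval : ∀ j, ∃ a : k, j ∈ s → val w (algebraMap Fk F (g j / g i₀)) = algebraMap k K a := by
    intro j
    by_cases hj : j ∈ s
    · obtain ⟨a, ha⟩ := dd_val_mem_range (k := k) w he₀ (hreg j hj)
      exact ⟨a, fun _ => ha⟩
    · exact ⟨0, fun h => absurd h hj⟩
  choose a ha using hval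
  have hsum : ∑ j ∈ s, algebraMap Fk F (g j / g i₀) * algebraMap K F (c j) = 0 := by
    have : ∑ j ∈ s, algebraMap Fk F (g j / g i₀) * algebraMap K F (c j)
        = (algebraMap Fk F (g i₀))⁻¹ * ∑ j ∈ s, g j • algebraMap K F (c j) := by
      rw [Finset.mul_sum]
      refine Finset.sum_congr rfl fun j _ => ?_
      rw [Algebra.smul_def, map_div₀]
      ring
    rw [this, hg, mul_zero]
  have hv := congrArg (val w) hsum
  rw [val_zero, val_sum w s _ (fun j hj =>
    ord_mul_nonneg w (hreg j hj) (ord_algebraMap_nonneg w _))] at hv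
  have hv' : ∑ j ∈ s, a j • c j = 0 := by
    rw [← hv]
    refine Finset.sum_congr rfl fun j hj => ?_
    rw [val_mul w (hreg j hj) (ord_algebraMap_nonneg w _), val_algebraMap, ha j hj,
      Algebra.smul_def]
  have h0 := linearIndependent_iff'.mp hc s a hv' i₀ hi₀s
  have h1 := ha i₀ hi₀s
  rw [div_self hi₀0, map_one, val_one, h0, map_zero] at h1
  exact one_ne_zero h1

theorem dd_constExtMap_tmul (e : Fk) (c : K) :
    constExtMap k K Fk F (e ⊗ₜ[k] c) = algebraMap Fk F e * algebraMap K F c := by
  simp [constExtMap]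

theorem dd_constExtMap_smul (e : Fk) (z : Fk ⊗[k] K) :
    constExtMap k K Fk F (e • z) = algebraMap Fk F e * constExtMap k K Fk F z := by
  induction z using TensorProduct.induction_on with
  | zero => simp
  | tmul x y =>
    rw [TensorProduct.smul_tmul', dd_constExtMap_tmul, dd_constExtMap_tmul, smul_eq_mul, map_mul]
    ring
  | add x y hx hy => rw [smul_add, map_add, map_add, hx, hy, mul_add]

/-- linear disjointness from a place nontrivial on `Fk`. -/
theorem dd_injective_constExtMap [IsAlgClosed k] [CharZero k] [IsFF1 k Fk]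
    [IsAlgClosed K] [IsFF1 K F]
    (w : Place K F) {e₀ : Fk} (he₀ : w.ord (algebraMap Fk F e₀) ≠ 0) :
    Function.Injective (constExtMap k K Fk F) := by
  classical
  let b := Module.Basis.ofVectorSpace k K
  let B := Algebra.TensorProduct.basis Fk b
  have hli := dd_linearIndependent_of_place (Fk := Fk) w he₀ b.linearIndependent
  rw [injective_iff_map_eq_zero]
  intro z hz
  have hrepr : z = ∑ j ∈ (B.repr z).support, (B.repr z) j • B j := by
    conv_lhs => rw [← B.linearCombination_repr z]
    rw [Finsupp.linearCombination_apply, Finsupp.sum]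
  rw [hrepr, map_sum] at hz
  have hz' : ∑ j ∈ (B.repr z).support, (B.repr z) j • algebraMap K F (b j) = 0 := by
    rw [← hz]
    refine Finset.sum_congr rfl fun j _ => ?_
    rw [dd_constExtMap_smul, Algebra.TensorProduct.basis_apply, dd_constExtMap_tmul, map_one,
      one_mul, Algebra.smul_def]
  have h0 := linearIndependent_iff'.mp hli _ _ hz'
  rw [hrepr]
  exact Finset.sum_eq_zero fun j hj => by rw [h0 j hj, zero_smul]

end Criterion

end Fermat.Agent.S27
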