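import Fermat.Agent.S27.B.DescentCrit

/-!
# S27 block [B8], part 2: a model of `F/K` over a given algebraically closed subfield `k`
containing the coefficients of a plane equation.
-/

set_option autoImplicit false

universe u v

namespace Fermat.Agent.S27

open AlgebraicCurve Fermat.Agent.S24.FF TensorProduct Polynomial IntermediateField

section FF1

variable {k : Type*} {F : Type*} [Field k] [Field F] [Algebra k F]

/-- `k(t,y)` is a function field if `t` is transcendental and `Q(t,y) = 0`, `Q ≠ 0`. -/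
theorem dd_isFF1_adjoin {t y : F} (ht : Transcendental k t) (Q : k[X][X]) (hQ0 : Q ≠ 0)
    (hQ : Q.eval₂ ((aeval t : k[X] →ₐ[k] F) : k[X] →+* F) y = 0) :
    IsFF1 k (IntermediateField.adjoin k ({t, y} : Set F)) := by
  set Fk := IntermediateField.adjoin k ({t, y} : Set F) with hFk
  have htm : t ∈ Fk := subset_adjoin k _ (by simp)
  have hym : y ∈ Fk := subset_adjoin k _ (by simp)
  let t' : Fk := ⟨t, htm⟩
  let y' : Fk := ⟨y, hym⟩
  have ht' : Transcendental k t' := fun h => ht ((IntermediateField.isAlgebraic_iff).mp h)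
  refine ⟨t', ht', ?_⟩
  -- y' is integral over k⟮t'⟯
  let φ : k[X] →+* k⟮t'⟯ := (aeval (AdjoinSimple.gen k t') : k[X] →ₐ[k] k⟮t'⟯)
  have hφ : Function.Injective φ := by
    have : Transcendental k (AdjoinSimple.gen k t') := fun h => ht' (by
      have := (IntermediateField.isAlgebraic_iff).mp h
      simpa using this)
    exact transcendental_iff_injective.mp this
  have halg : IsAlgebraic k⟮t'⟯ y' := by
    refine ⟨Q.map φ, (Polynomial.map_ne_zero_iff hφ).mpr hQ0, ?_⟩
    apply (algebraMap Fk F).injective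
    rw [map_zero, aeval_def, eval₂_map, hom_eval₂, ← hQ]
    congr 1
    apply Polynomial.ringHom_ext
    · intro a
      simp [φ]
    · simp [φ]
      rfl
  have htop : k⟮t'⟯⟮y'⟯ = ⊤ := by
    apply IntermediateField.restrictScalars_injective k
    rw [adjoin_adjoin_left, restrictScalars_top]
    apply IntermediateField.lift_injective
    rw [lift_adjoin, lift_top, Set.image_union, Set.image_singleton, Set.image_singleton]
    rfl
  have hfd : FiniteDimensional k⟮t'⟯ k⟮t'⟯⟮y'⟯ := adjoin.finiteDimensional halg.isIntegral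
  rw [htop] at hfd
  exact (topEquiv (F := k⟮t'⟯) (E := Fk)).toLinearEquiv.finiteDimensional

end FF1

section Model

variable {K : Type u} {F : Type v} [Field K] [Field F] [Algebra K F]

theorem dd_exists_zero [IsAlgClosed K] [CharZero K] [IsFF1 K F] {t : F} (ht : Transcendental K t) :
    ∃ w : Place K F, 0 < w.ord t := by
  by_contra hcon
  push Not at hcon
  have h := sum_ord_zeros ht
  have hfd := finiteDimensional_adjoin_of_transcendental ht
  have hpos : 0 < Module.finrank K⟮t⟯ F := Module.finrank_pos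
  have hempty : (finite_zeros ht).toFinset = ∅ := by
    ext w
    simp only [Set.Finite.mem_toFinset, Set.mem_ofPred_eq, Finset.notMem_empty, iff_false, not_lt]
    exact hcon w
  rw [hempty, Finset.sum_empty] at h
  have : (0 : ℤ) < (Module.finrank K⟮t⟯ F : ℤ) := by exact_mod_cast hpos
  omega

theorem dd_mem_range_constExtMap {k K Fk F : Type*} [Field k] [Field K] [Field Fk] [Field F]
    [Algebra k K] [Algebra k Fk] [Algebra K F] [Algebra Fk F] [Algebra k F]
    [IsScalarTower k K F] [IsScalarTower k Fk F] {S : Set F}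
    (hS : ∀ s ∈ S, s ∈ Set.range (algebraMap Fk F)) {r : F} (hr : r ∈ Algebra.adjoin K S) :
    ∃ a : Fk ⊗[k] K, constExtMap k K Fk F a = r := by
  induction hr using Algebra.adjoin_induction with
  | mem x hx =>
    obtain ⟨e, rfl⟩ := hS x hx
    exact ⟨e ⊗ₜ 1, by rw [dd_constExtMap_tmul, map_one, mul_one]⟩
  | algebraMap c => exact ⟨1 ⊗ₜ c, by rw [dd_constExtMap_tmul, map_one, one_mul]⟩
  | add x y _ _ hx hy =>
    obtain ⟨a, rfl⟩ := hx
    obtain ⟨b, rfl⟩ := hy
    exact ⟨a + b, map_add _ _ _⟩
  | mul x y _ _ hx hy =>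
    obtain ⟨a, rfl⟩ := hx
    obtain ⟨b, rfl⟩ := hy
    exact ⟨a * b, map_mul _ _ _⟩

theorem dd_exists_model [IsAlgClosed K] [CharZero K] [IsFF1 K F]
    (k : Type u) [Field k] [Algebra k K] [IsAlgClosed k] [CharZero k] [Countable k]
    {t y : F} (ht : Transcendental K t) (hgen : IntermediateField.adjoin K ({t, y} : Set F) = ⊤)
    (Q : k[X][X]) (hQ0 : Q ≠ 0)
    (hQ : (Q.map (mapRingHom (algebraMap k K))).eval₂
      ((aeval t : K[X] →ₐ[K] F) : K[X] →+* F) y = 0)
    (T : Finset (Place K F))
    (hT : ∀ w ∈ T, 0 ≤ w.ord t → ∃ a : k, val w t = algebraMap k K a) :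
    ∃ d : DescentData K F, ∃ x : d.Fk, Transcendental d.k x ∧ ∀ w ∈ T,
      w.ord (algebraMap d.Fk F x) < 0 ∨
        ∃ a : d.k, 0 < w.ord (algebraMap d.Fk F x - algebraMap K F (algebraMap d.k K a)) := by
  letI : Algebra k F := ((algebraMap K F).comp (algebraMap k K)).toAlgebra
  haveI : IsScalarTower k K F := IsScalarTower.of_algebraMap_eq fun _ => rfl
  have htk : Transcendental k t := fun h => ht (h.extendScalars (algebraMap k K).injective)
  have hQ' : Q.eval₂ ((aeval t : k[X] →ₐ[k] F) : k[X] →+* F) y = 0 := by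
    rw [eval₂_map] at hQ
    rw [← hQ]
    congr 1
    apply Polynomial.ringHom_ext
    · intro a
      simp [IsScalarTower.algebraMap_apply k K F]
    · simp
  haveI := dd_isFF1_adjoin htk Q hQ0 hQ'
  have htm : t ∈ IntermediateField.adjoin k ({t, y} : Set F) := subset_adjoin k _ (by simp)
  have hym : y ∈ IntermediateField.adjoin k ({t, y} : Set F) := subset_adjoin k _ (by simp)
  obtain ⟨w₀, hw₀⟩ := dd_exists_zero ht
  have hce : IsConstExt k K (IntermediateField.adjoin k ({t, y} : Set F)) F := by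
    refine ⟨dd_injective_constExtMap w₀ (e₀ := ⟨t, htm⟩) hw₀.ne', fun z => ?_⟩
    have hz : z ∈ IntermediateField.adjoin K ({t, y} : Set F) := hgen ▸ IntermediateField.mem_top
    obtain ⟨r, hr, s, hs, rfl⟩ := mem_adjoin_iff_div.mp hz
    have hS : ∀ s ∈ ({t, y} : Set F),
        s ∈ Set.range (algebraMap (IntermediateField.adjoin k ({t, y} : Set F)) F) := by
      intro s hs
      exact ⟨⟨s, subset_adjoin k _ hs⟩, rfl⟩
    obtain ⟨a, ha⟩ := dd_mem_range_constExtMap (k := k) hS hr
    obtain ⟨b, hb⟩ := dd_mem_range_constExtMap (k := k) hS hs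
    rcases eq_or_ne s 0 with rfl | hs0
    · exact ⟨0, 1, by rw [map_one]; exact one_ne_zero, by simp⟩
    · exact ⟨a, b, by rw [hb]; exact hs0, by rw [ha, hb, div_mul_cancel₀ _ hs0]⟩
  refine ⟨{ k := k, Fk := IntermediateField.adjoin k ({t, y} : Set F), isConstExt := hce },
    ⟨t, htm⟩, fun h => htk ((IntermediateField.isAlgebraic_iff).mp h), fun w hw => ?_⟩
  show w.ord t < 0 ∨ ∃ a : k, 0 < w.ord (t - algebraMap K F (algebraMap k K a))
  rcases lt_or_ge (w.ord t) 0 with h | h
  · exact Or.inl h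
  · right
    obtain ⟨a, ha⟩ := hT w hw h
    refine ⟨a, ?_⟩
    rcases val_spec w h with h1 | h1
    · exact absurd (h1 ▸ isAlgebraic_algebraMap _) ht
    · rwa [ha] at h1

end Model

end Fermat.Agent.S27
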