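import Fermat.Agent.S27.A.Api
import Fermat.Agent.GAL.FF.Places

/-!
# S27 [B3], core: `L(D)` commutes with constant field extension

Everything is stated for an abstract "extension of places" map `e : Place k Fk → Place K F`
and takes the inputs from the other packages ([A] Riemann, [B1], [B2], [B5], [B6]) as hypotheses.

Notation: `ι = algebraMap Fk F`, `N = ceN = K`-span of `ι Fk` (the image of `Fk ⊗[k] K`),
`M = ceM =` the functions which are regular at all places `w` at which all of `ι Fk` is regular.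
The heart of the matter is `M = N`: `M / N` is finite dimensional over `K` by Riemann's theorem,
multiplication by `ι x` acts on it, the eigenvalues are not in `k`, and the set of eigenvalues is
stable under `Aut(K/k)`, hence it is empty.
-/

set_option autoImplicit false
set_option linter.unusedSectionVars false

namespace Fermat.Agent.S27.EllExtCore

open AlgebraicCurve Fermat.Agent.S24.FF

section Core

variable {k K Fk F : Type*} [Field k] [Field K] [Field Fk] [Field F]
  [Algebra k K] [Algebra k Fk] [Algebra K F] [Algebra Fk F] [Algebra k F]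
  [IsScalarTower k K F] [IsScalarTower k Fk F]

/-! ## the `K`-span `N` of `Fk` -/

variable (K Fk F) in
/-- the `K`-span of the image of `Fk` in `F`. -/
noncomputable def ceN : Submodule K F := Submodule.span K (Set.range (algebraMap Fk F))

theorem algebraMap_mem_ceN (f : Fk) : algebraMap Fk F f ∈ ceN K Fk F :=
  Submodule.subset_span ⟨f, rfl⟩

theorem mul_mem_ceN (g : Fk) {n : F} (hn : n ∈ ceN K Fk F) :
    algebraMap Fk F g * n ∈ ceN K Fk F := by
  have h : ceN K Fk F ≤ (ceN K Fk F).comap (LinearMap.mulLeft K (algebraMap Fk F g)) := by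
    unfold ceN
    rw [Submodule.span_le]
    rintro _ ⟨f, rfl⟩
    show algebraMap Fk F g * algebraMap Fk F f ∈ Submodule.span K (Set.range (algebraMap Fk F))
    rw [← map_mul]
    exact Submodule.subset_span ⟨_, rfl⟩
  exact h hn

theorem algebraMap_algebraMap_eq (a : k) :
    algebraMap K F (algebraMap k K a) = algebraMap Fk F (algebraMap k Fk a) := by
  rw [← IsScalarTower.algebraMap_apply k K F, ← IsScalarTower.algebraMap_apply k Fk F]

/-- every element of `N` is a combination `∑ b i • ι (φ i)` for a given basis `b` of `K/k`. -/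
theorem exists_repr_of_mem_ceN {I : Type*} (b : Module.Basis I k K) {n : F}
    (hn : n ∈ ceN K Fk F) :
    ∃ φ : I →₀ Fk, n = φ.sum fun i f => b i • algebraMap Fk F f := by
  classical
  have hadd : ∀ φ ψ : I →₀ Fk, ((φ + ψ).sum fun i f => b i • algebraMap Fk F f)
      = (φ.sum fun i f => b i • algebraMap Fk F f) + ψ.sum fun i f => b i • algebraMap Fk F f := by
    intro φ ψ
    apply Finsupp.sum_add_index'
    · intro i; simp
    · intro i f g; rw [map_add, smul_add]
  have hone : ∀ (c : K) (f : Fk), ∃ φ : I →₀ Fk,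
      c • algebraMap Fk F f = φ.sum fun i f => b i • algebraMap Fk F f := by
    intro c f
    refine ⟨(b.repr c).mapRange (fun a => a • f) (zero_smul _ _), ?_⟩
    rw [Finsupp.sum_mapRange_index (by intro i; simp)]
    conv_lhs => rw [← b.linearCombination_repr c, Finsupp.linearCombination_apply]
    unfold Finsupp.sum
    rw [Finset.sum_smul]
    refine Finset.sum_congr rfl fun i _ => ?_
    simp only [Algebra.smul_def, map_mul, algebraMap_algebraMap_eq (K := K) (Fk := Fk) (F := F)]
    ring
  unfold ceN at hn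
  induction hn using Submodule.span_induction with
  | mem x hx =>
    obtain ⟨f, rfl⟩ := hx
    obtain ⟨φ, hφ⟩ := hone 1 f
    exact ⟨φ, by rw [← hφ, one_smul]⟩
  | zero => exact ⟨0, by simp⟩
  | add x y _ _ hx hy =>
    obtain ⟨φ, rfl⟩ := hx
    obtain ⟨ψ, rfl⟩ := hy
    exact ⟨φ + ψ, (hadd φ ψ).symm⟩
  | smul c x hx' hx =>
    obtain ⟨φ, rfl⟩ := hx
    clear hx'
    induction φ using Finsupp.induction_linear with
    | zero => exact ⟨0, by simp⟩
    | add φ ψ hφ hψ =>
      obtain ⟨φ', hφ'⟩ := hφ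
      obtain ⟨ψ', hψ'⟩ := hψ
      exact ⟨φ' + ψ', by rw [hadd, hadd, smul_add, hφ', hψ']⟩
    | single i f =>
      obtain ⟨φ, hφ⟩ := hone (c * b i) f
      exact ⟨φ, by rw [← hφ, Finsupp.sum_single_index (by simp), mul_smul]⟩

/-! ## the coefficient lemma -/

section Coeff

variable [IsAlgClosed k] [IsAlgClosed K] [IsFF1 k Fk] [IsFF1 K F]

omit [IsAlgClosed K] [IsFF1 K F] in
theorem val_algebraMap_of_ord (e : Place k Fk → Place K F)
    (he_ord : ∀ P f, (e P).ord (algebraMap Fk F f) = P.ord f) (P : Place k Fk) {g : Fk}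
    (hg : 0 ≤ P.ord g) :
    val (e P) (algebraMap Fk F g) = algebraMap k K (val P g) := by
  apply val_eq_of
  rcases val_spec P hg with h | h
  · left; rw [algebraMap_algebraMap_eq (Fk := Fk), ← h]
  · right; rw [algebraMap_algebraMap_eq (Fk := Fk), ← map_sub, he_ord]; exact h

/-- if `∑ b i • ι (φ i)` has order `≥ m` at `e P`, then all `φ i` have order `≥ m` at `P`. -/
theorem coeff_ord_ge {I : Type*} (b : Module.Basis I k K) (e : Place k Fk → Place K F)
    (he_ord : ∀ P f, (e P).ord (algebraMap Fk F f) = P.ord f) (P : Place k Fk) (m : ℤ)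
    (φ : I →₀ Fk)
    (h : (φ.sum fun i f => b i • algebraMap Fk F f) = 0 ∨
      m ≤ (e P).ord (φ.sum fun i f => b i • algebraMap Fk F f)) (i : I) :
    φ i = 0 ∨ m ≤ P.ord (φ i) := by
  classical
  by_contra hcon
  push Not at hcon
  obtain ⟨hi0, him⟩ := hcon
  have hisupp : i ∈ φ.support := Finsupp.mem_support_iff.mpr hi0
  obtain ⟨i₁, hi₁, hmin⟩ := Finset.exists_min_image φ.support (fun j => P.ord (φ j)) ⟨i, hisupp⟩
  have hi₁0 : φ i₁ ≠ 0 := Finsupp.mem_support_iff.mp hi₁
  set u := (φ i₁)⁻¹ with hu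
  have hu0 : u ≠ 0 := inv_ne_zero hi₁0
  set n := φ.sum fun i f => b i • algebraMap Fk F f with hn
  have hψ : ∀ j ∈ φ.support, 0 ≤ P.ord (u * φ j) := by
    intro j hj
    rw [P.ord_mul hu0 (Finsupp.mem_support_iff.mp hj), hu, P.ord_inv]
    have := hmin j hj
    omega
  have hun : algebraMap Fk F u * n = ∑ j ∈ φ.support, b j • algebraMap Fk F (u * φ j) := by
    rw [hn, Finsupp.sum, Finset.mul_sum]
    refine Finset.sum_congr rfl fun j _ => ?_
    rw [map_mul, mul_smul_comm]
  have hterm : ∀ j ∈ φ.support, 0 ≤ (e P).ord (b j • algebraMap Fk F (u * φ j)) := by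
    intro j hj
    rw [Algebra.smul_def]
    exact ord_mul_nonneg _ (ord_algebraMap_nonneg _ _) (by rw [he_ord]; exact hψ j hj)
  have hval : val (e P) (algebraMap Fk F u * n)
      = ∑ j ∈ φ.support, (val P (u * φ j)) • b j := by
    rw [hun, val_sum _ _ _ hterm]
    refine Finset.sum_congr rfl fun j hj => ?_
    rw [val_smul _ _ (by rw [he_ord]; exact hψ j hj),
      val_algebraMap_of_ord e he_ord P (hψ j hj), Algebra.smul_def, mul_comm]
  have hvalne : val (e P) (algebraMap Fk F u * n) ≠ 0 := by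
    rw [hval]
    intro h0
    have := linearIndependent_iff'.mp b.linearIndependent φ.support
      (fun j => val P (u * φ j)) h0 i₁ hi₁
    simp only [hu, inv_mul_cancel₀ hi₁0, val_one] at this
    exact one_ne_zero this
  have hne : algebraMap Fk F u * n ≠ 0 := by
    intro h0
    rw [h0, val_zero] at hvalne
    exact hvalne rfl
  have hn0 : n ≠ 0 := right_ne_zero_of_mul hne
  have hord0 : (e P).ord (algebraMap Fk F u * n) = 0 := by
    have h1 : 0 ≤ (e P).ord (algebraMap Fk F u * n) := by
      rw [hun]; exact ord_sum_nonneg _ _ _ hterm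
    exact (val_ne_zero_iff _ hne h1).mp hvalne
  rw [(e P).ord_mul (left_ne_zero_of_mul hne) hn0, he_ord, hu, P.ord_inv] at hord0
  have h2 := h.resolve_left hn0
  have h3 := hmin i hisupp
  omega

end Coeff

/-! ## the module `M` -/

variable (K Fk F) in
/-- the functions which are regular at all places at which all of `Fk` is regular. -/
noncomputable def ceM : Submodule K F where
  carrier := {f' | ∀ w : Place K F, (∀ g : Fk, 0 ≤ w.ord (algebraMap Fk F g)) → 0 ≤ w.ord f'}
  zero_mem' := by intro w _; simp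
  add_mem' := by intro a b ha hb w hw; exact ord_add_nonneg w (ha w hw) (hb w hw)
  smul_mem' := by
    intro c a ha w hw
    rw [Algebra.smul_def]
    exact ord_mul_nonneg w (ord_algebraMap_nonneg w c) (ha w hw)

theorem ceN_le_ceM : ceN K Fk F ≤ ceM K Fk F := by
  unfold ceN
  rw [Submodule.span_le]
  rintro _ ⟨f, rfl⟩ w hw
  exact hw f

theorem mul_mem_ceM (g : Fk) {f' : F} (hf : f' ∈ ceM K Fk F) :
    algebraMap Fk F g * f' ∈ ceM K Fk F :=
  fun w hw => ord_mul_nonneg w (hw g) (hf w hw)

theorem mem_riemannRochSpace_mapDomain_iff (e : Place k Fk → Place K F)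
    (he_inj : Function.Injective e) (D : Divisor k Fk) (f' : F) :
    f' ∈ riemannRochSpace (D.mapDomain e) ↔
      (∀ P, f' = 0 ∨ - D P ≤ (e P).ord f') ∧ ∀ w, w ∉ Set.range e → 0 ≤ w.ord f' := by
  rw [mem_riemannRochSpace_iff]
  constructor
  · intro h
    refine ⟨fun P => ?_, fun w hw => ?_⟩
    · have := h (e P)
      rwa [Finsupp.mapDomain_apply he_inj] at this
    · have := h w
      rw [Finsupp.mapDomain_of_notMem_range _ _ hw] at this
      rcases this with rfl | h
      · simp
      · simpa using h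
  · rintro ⟨h1, h2⟩ w
    by_cases hw : w ∈ Set.range e
    · obtain ⟨P, rfl⟩ := hw
      rw [Finsupp.mapDomain_apply he_inj]
      exact h1 P
    · right
      rw [Finsupp.mapDomain_of_notMem_range _ _ hw]
      simpa using h2 w hw

theorem exists_ord_neg_of_ext (e : Place k Fk → Place K F)
    (he_ord : ∀ P f, (e P).ord (algebraMap Fk F f) = P.ord f) (P : Place k Fk) :
    ∃ g : Fk, (e P).ord (algebraMap Fk F g) < 0 := by
  obtain ⟨π, hπ⟩ := exists_ord_eq_one P
  exact ⟨π⁻¹, by rw [he_ord, P.ord_inv, hπ]; norm_num⟩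

theorem riemannRochSpace_mapDomain_le_ceM (e : Place k Fk → Place K F)
    (he_ord : ∀ P f, (e P).ord (algebraMap Fk F f) = P.ord f)
    (he_inj : Function.Injective e) (D : Divisor k Fk) :
    riemannRochSpace (D.mapDomain e) ≤ ceM K Fk F := by
  intro f' hf w hw
  rw [mem_riemannRochSpace_mapDomain_iff e he_inj] at hf
  apply hf.2 w
  rintro ⟨P, rfl⟩
  obtain ⟨g, hg⟩ := exists_ord_neg_of_ext e he_ord P
  exact absurd (hw g) (not_le.mpr hg)

theorem riemannRochSpace_mapDomain_mono (e : Place k Fk → Place K F)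
    (he_inj : Function.Injective e) {D D' : Divisor k Fk} (h : D ≤ D') :
    riemannRochSpace (D.mapDomain e) ≤ riemannRochSpace (D'.mapDomain e) := by
  intro f' hf
  rw [mem_riemannRochSpace_mapDomain_iff e he_inj] at hf ⊢
  refine ⟨fun P => (hf.1 P).imp_right fun h1 => ?_, hf.2⟩
  have := h P
  omega

theorem exists_mem_riemannRochSpace_of_mem_ceM [IsAlgClosed K] [CharZero K] [IsFF1 K F]
    (e : Place k Fk → Place K F) (he_inj : Function.Injective e)
    (he_range : ∀ (w : Place K F) (g : Fk), w.ord (algebraMap Fk F g) < 0 → w ∈ Set.range e)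
    {f' : F} (hf : f' ∈ ceM K Fk F) :
    ∃ D : Divisor k Fk, f' ∈ riemannRochSpace (D.mapDomain e) := by
  obtain ⟨D', hD'⟩ := exists_divisor_of_ne_zero (K := K) f'
  refine ⟨(-D').comapDomain e he_inj.injOn, ?_⟩
  rw [mem_riemannRochSpace_mapDomain_iff e he_inj]
  refine ⟨fun P => Or.inr ?_, fun w hw => hf w fun g => ?_⟩
  · rw [Finsupp.comapDomain_apply, Finsupp.neg_apply, hD', neg_neg]
  · by_contra hcon
    exact hw (he_range w g (not_le.mp hcon))

theorem degree_mapDomain_ext [IsAlgClosed k] [IsAlgClosed K] [IsFF1 k Fk] [IsFF1 K F]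
    (e : Place k Fk → Place K F) (D : Divisor k Fk) :
    Divisor.degree (D.mapDomain e) = Divisor.degree D := by
  induction D using Finsupp.induction_linear with
  | zero => simp
  | add D D' h h' => rw [Finsupp.mapDomain_add, map_add, map_add, h, h']
  | single P n =>
    rw [Finsupp.mapDomain_single, Divisor.degree_single, Divisor.degree_single, deg_eq_one,
      deg_eq_one]

theorem degree_le_degree_of_le [IsAlgClosed k] [IsFF1 k Fk] {D D' : Divisor k Fk} (h : D ≤ D') :
    Divisor.degree D ≤ Divisor.degree D' := by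
  classical
  rw [degree_eq_sum_of_support_subset D (D.support ∪ D'.support) Finset.subset_union_left,
    degree_eq_sum_of_support_subset D' (D.support ∪ D'.support) Finset.subset_union_right]
  exact Finset.sum_le_sum fun v _ => h v

/-! ## the span `W_D` of `L(D)` -/

variable (K F) in
/-- the `K`-span of the image of `L(D)`. -/
noncomputable def ceW (D : Divisor k Fk) : Submodule K F :=
  Submodule.span K (algebraMap Fk F '' (riemannRochSpace D : Set Fk))

theorem ceW_le_ceN (D : Divisor k Fk) : ceW K F D ≤ ceN K Fk F :=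
  Submodule.span_mono (Set.image_subset_range _ _)

theorem ceW_le_riemannRochSpace (e : Place k Fk → Place K F)
    (he_ord : ∀ P f, (e P).ord (algebraMap Fk F f) = P.ord f)
    (he_inj : Function.Injective e)
    (he_range : ∀ (w : Place K F) (g : Fk), w.ord (algebraMap Fk F g) < 0 → w ∈ Set.range e)
    (D : Divisor k Fk) : ceW K F D ≤ riemannRochSpace (D.mapDomain e) := by
  unfold ceW
  rw [Submodule.span_le]
  rintro _ ⟨f, hf, rfl⟩
  rw [SetLike.mem_coe, mem_riemannRochSpace_mapDomain_iff e he_inj]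
  rw [SetLike.mem_coe, mem_riemannRochSpace_iff] at hf
  refine ⟨fun P => ?_, fun w hw => ?_⟩
  · rcases hf P with rfl | h
    · left; simp
    · right; rwa [he_ord]
  · by_contra hcon
    exact hw (he_range w f (not_le.mp hcon))

theorem finrank_ceW
    (hlin : ∀ (n : ℕ) (f : Fin n → Fk), LinearIndependent k f →
      LinearIndependent K (fun i => algebraMap Fk F (f i)))
    (D : Divisor k Fk) [Module.Finite k (riemannRochSpace D)] :
    Module.finrank K (ceW K F D) = ell D := by
  let v := Module.finBasis k (riemannRochSpace D)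
  have hli : LinearIndependent k (fun i => (v i : Fk)) :=
    v.linearIndependent.map' (Submodule.subtype _) (Submodule.ker_subtype _)
  have hLI := hlin _ _ hli
  have hspan : ceW K F D = Submodule.span K (Set.range fun i => algebraMap Fk F (v i : Fk)) := by
    apply le_antisymm
    · unfold ceW
      rw [Submodule.span_le]
      rintro _ ⟨f, hf, rfl⟩
      have h1 := v.sum_repr ⟨f, hf⟩
      have h2 : f = ∑ i, (v.repr ⟨f, hf⟩ i) • (v i : Fk) := by
        have h3 := congrArg (Submodule.subtype _) h1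
        rw [map_sum] at h3
        exact h3.symm
      rw [h2, map_sum]
      refine Submodule.sum_mem _ fun i _ => ?_
      rw [Algebra.smul_def, map_mul, ← algebraMap_algebraMap_eq (K := K), ← Algebra.smul_def]
      exact Submodule.smul_mem _ _ (Submodule.subset_span ⟨i, rfl⟩)
    · rw [Submodule.span_le]
      rintro _ ⟨i, rfl⟩
      exact Submodule.subset_span ⟨_, (v i).2, rfl⟩
  rw [hspan, finrank_span_eq_card hLI, Fintype.card_fin]
  rfl

/-! ## linear algebra -/

theorem finrank_map_mkQ_add_le {V : Type*} [AddCommGroup V] [Module K V] (L N W : Submodule K V)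
    [Module.Finite K L] (hWL : W ≤ L) (hWN : W ≤ N) :
    Module.finrank K (L.map N.mkQ) + Module.finrank K W ≤ Module.finrank K L := by
  let g : L →ₗ[K] V ⧸ N := N.mkQ.domRestrict L
  have h1 := LinearMap.finrank_range_add_finrank_ker g
  have h2 : LinearMap.range g = L.map N.mkQ := LinearMap.range_domRestrict _ _
  have h3 : W.submoduleOf L ≤ LinearMap.ker g := by
    intro x hx
    rw [LinearMap.mem_ker]
    show N.mkQ (x : V) = 0
    rw [Submodule.mkQ_apply, Submodule.Quotient.mk_eq_zero]
    exact hWN hx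
  have h4 : Module.finrank K (W.submoduleOf L) = Module.finrank K W :=
    (Submodule.submoduleOfEquivOfLe hWL).finrank_eq
  have h5 := Submodule.finrank_mono h3
  rw [h2] at h1
  omega

theorem exists_forall_le_of_directed_of_finrank_le {V J : Type*} [AddCommGroup V] [Module K V]
    [Nonempty J] (T : J → Submodule K V) (hfin : ∀ i, Module.Finite K (T i)) (δ : ℕ)
    (hδ : ∀ i, Module.finrank K (T i) ≤ δ) (hdir : ∀ i j, ∃ l, T i ≤ T l ∧ T j ≤ T l) :
    ∃ i₀, ∀ i, T i ≤ T i₀ := by
  have hne : (Set.range fun i => Module.finrank K (T i)).Nonempty := Set.range_nonempty _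
  have hbdd : BddAbove (Set.range fun i => Module.finrank K (T i)) :=
    ⟨δ, by rintro _ ⟨i, rfl⟩; exact hδ i⟩
  obtain ⟨i₀, hi₀⟩ := Nat.sSup_mem hne hbdd
  refine ⟨i₀, fun i => ?_⟩
  obtain ⟨l, hil, hi₀l⟩ := hdir i i₀
  have hle : Module.finrank K (T l) ≤ Module.finrank K (T i₀) := by
    have h1 : Module.finrank K (T l) ≤ sSup (Set.range fun i => Module.finrank K (T i)) :=
      le_csSup hbdd ⟨l, rfl⟩
    rw [← hi₀] at h1
    exact h1
  have := hfin l
  have heq : T i₀ = T l := Submodule.eq_of_le_of_finrank_le hi₀l hle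
  rw [heq]
  exact hil

/-! ## `M / N` is finite dimensional -/

theorem finite_map_ceM [IsAlgClosed k] [IsAlgClosed K] [CharZero K] [IsFF1 k Fk] [IsFF1 K F]
    (e : Place k Fk → Place K F)
    (he_ord : ∀ P f, (e P).ord (algebraMap Fk F f) = P.ord f)
    (he_inj : Function.Injective e)
    (he_range : ∀ (w : Place K F) (g : Fk), w.ord (algebraMap Fk F g) < 0 → w ∈ Set.range e)
    (hlin : ∀ (n : ℕ) (f : Fin n → Fk), LinearIndependent k f →
      LinearIndependent K (fun i => algebraMap Fk F (f i)))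
    (hfin_k : ∀ D : Divisor k Fk, Module.Finite k (riemannRochSpace D))
    (hfin_K : ∀ D : Divisor K F, Module.Finite K (riemannRochSpace D))
    (hR_k : ∃ c g : ℤ, ∀ D : Divisor k Fk, c ≤ Divisor.degree D →
      (ell D : ℤ) = Divisor.degree D + 1 - g)
    (hR_K : ∃ c g : ℤ, ∀ D : Divisor K F, c ≤ Divisor.degree D →
      (ell D : ℤ) = Divisor.degree D + 1 - g) :
    Module.Finite K ((ceM K Fk F).map (ceN K Fk F).mkQ) := by
  classical
  obtain ⟨c₁, g₁, h₁⟩ := hR_k
  obtain ⟨c₂, g₂, h₂⟩ := hR_K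
  obtain ⟨P₀⟩ := Fermat.Agent.GAL.FF.nonempty_place (K := k) (F := Fk)
  let J := {D : Divisor k Fk // max c₁ c₂ ≤ Divisor.degree D}
  have hJ : Nonempty J := ⟨⟨Finsupp.single P₀ (max c₁ c₂), by
    rw [Divisor.degree_single, deg_eq_one]; simp⟩⟩
  let T : J → Submodule K (F ⧸ ceN K Fk F) := fun D =>
    (riemannRochSpace (D.1.mapDomain e)).map (ceN K Fk F).mkQ
  have hTfin : ∀ D, Module.Finite K (T D) := by
    intro D
    have := hfin_K (D.1.mapDomain e)
    exact Module.Finite.map _ _
  have hδ : ∀ D, Module.finrank K (T D) ≤ (g₁ - g₂).toNat := by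
    intro D
    have := hfin_K (D.1.mapDomain e)
    have := hfin_k D.1
    have h3 := finrank_map_mkQ_add_le (riemannRochSpace (D.1.mapDomain e)) (ceN K Fk F)
      (ceW K F D.1) (ceW_le_riemannRochSpace e he_ord he_inj he_range D.1) (ceW_le_ceN D.1)
    rw [finrank_ceW hlin D.1] at h3
    have h4 := h₁ D.1 (le_trans (le_max_left _ _) D.2)
    have h5 := h₂ (D.1.mapDomain e) (by
      rw [degree_mapDomain_ext]; exact le_trans (le_max_right _ _) D.2)
    rw [degree_mapDomain_ext] at h5
    have h6 : Module.finrank K (riemannRochSpace (D.1.mapDomain e)) = ell (D.1.mapDomain e) := rfl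
    have h7 : Module.finrank K (T D) + ell D.1 ≤ ell (D.1.mapDomain e) := h3
    omega
  have hdir : ∀ D D' : J, ∃ D'' : J, T D ≤ T D'' ∧ T D' ≤ T D'' := by
    intro D D'
    refine ⟨⟨D.1 ⊔ D'.1, le_trans D.2 (degree_le_degree_of_le le_sup_left)⟩, ?_, ?_⟩
    · exact Submodule.map_mono (riemannRochSpace_mapDomain_mono e he_inj le_sup_left)
    · exact Submodule.map_mono (riemannRochSpace_mapDomain_mono e he_inj le_sup_right)
  obtain ⟨D₀, hD₀⟩ := exists_forall_le_of_directed_of_finrank_le T hTfin _ hδ hdir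
  have hle : (ceM K Fk F).map (ceN K Fk F).mkQ ≤ T D₀ := by
    rintro _ ⟨f', hf', rfl⟩
    obtain ⟨D, hD⟩ := exists_mem_riemannRochSpace_of_mem_ceM e he_inj he_range hf'
    let D₁ : J := ⟨D ⊔ D₀.1, le_trans D₀.2 (degree_le_degree_of_le le_sup_right)⟩
    exact hD₀ D₁ ⟨f', riemannRochSpace_mapDomain_mono e he_inj le_sup_left hD, rfl⟩
  have := hTfin D₀
  exact Submodule.finiteDimensional_of_le hle

/-! ## semilinear automorphisms preserve `M` and `N` -/

theorem map_mem_ceN (τ : F ≃+* F)
    (hK : ∀ c : K, ∃ c' : K, τ (algebraMap K F c) = algebraMap K F c')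
    (hFk : ∀ f : Fk, τ (algebraMap Fk F f) = algebraMap Fk F f) {n : F}
    (hn : n ∈ ceN K Fk F) : τ n ∈ ceN K Fk F := by
  unfold ceN at hn ⊢
  induction hn using Submodule.span_induction with
  | mem x hx =>
    obtain ⟨f, rfl⟩ := hx
    rw [hFk]
    exact Submodule.subset_span ⟨f, rfl⟩
  | zero => rw [map_zero]; exact Submodule.zero_mem _
  | add x y _ _ hx hy => rw [map_add]; exact Submodule.add_mem _ hx hy
  | smul c x _ hx =>
    obtain ⟨c', hc'⟩ := hK c
    rw [Algebra.smul_def, map_mul, hc', ← Algebra.smul_def]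
    exact Submodule.smul_mem _ _ hx

theorem map_mem_ceM [IsFF1 K F] (τ : F ≃+* F)
    (hK : ∀ c : K, ∃ c' : K, τ (algebraMap K F c) = algebraMap K F c')
    (hFk : ∀ f : Fk, τ (algebraMap Fk F f) = algebraMap Fk F f) {f' : F}
    (hf : f' ∈ ceM K Fk F) : τ f' ∈ ceM K Fk F := by
  intro w hw
  let O : ValuationSubring F := w.toValuationSubring.comap (τ : F →+* F)
  have hOK : ∀ a : K, algebraMap K F a ∈ O := by
    intro a
    obtain ⟨c', hc'⟩ := hK a
    show τ (algebraMap K F a) ∈ w.toValuationSubring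
    rw [hc']
    exact w.algebraMap_mem' c'
  have hOtop : O ≠ ⊤ := by
    intro htop
    apply w.ne_top'
    rw [eq_top_iff]
    intro y _
    have h1 : τ.symm y ∈ O := by rw [htop]; trivial
    have h2 : τ (τ.symm y) ∈ w.toValuationSubring := h1
    rwa [RingEquiv.apply_symm_apply] at h2
  obtain ⟨w', hw'⟩ := Fermat.Agent.GAL.FF.exists_place_of_valuationSubring O hOK hOtop
  have hgen : ∀ g : Fk, 0 ≤ w'.ord (algebraMap Fk F g) := by
    intro g
    apply ord_nonneg_of_mem
    rw [hw']
    show τ (algebraMap Fk F g) ∈ w.toValuationSubring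
    rw [hFk]
    exact mem_toValuationSubring_of_ord_nonneg w (hw g)
  have h1 := hf w' hgen
  have h2 : f' ∈ w'.toValuationSubring := mem_toValuationSubring_of_ord_nonneg w' h1
  rw [hw'] at h2
  exact ord_nonneg_of_mem w h2

/-! ## `M = N` -/

theorem ceM_le_ceN [IsAlgClosed k] [IsAlgClosed K] [CharZero K] [IsFF1 k Fk] [IsFF1 K F]
    (hQfin : Module.Finite K ((ceM K Fk F).map (ceN K Fk F).mkQ))
    (hB5 : ∀ z : K, Transcendental k z → ∀ m : ℕ, ∃ σ : K ≃ₐ[k] K, σ z = z + m)
    (hB6 : ∀ σ : K ≃ₐ[k] K, ∃ σF : F ≃+* F,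
      (∀ c : K, σF (algebraMap K F c) = algebraMap K F (σ c)) ∧
        ∀ f : Fk, σF (algebraMap Fk F f) = algebraMap Fk F f) :
    ceM K Fk F ≤ ceN K Fk F := by
  by_contra hnot
  obtain ⟨f₀, hf₀M, hf₀N⟩ := SetLike.not_le_iff_exists.mp hnot
  obtain ⟨x, hx, -⟩ := IsFF1.exists_transcendental (K := k) (F := Fk)
  set N := ceN K Fk F with hN
  set M := ceM K Fk F with hM
  let Xbig : (F ⧸ N) →ₗ[K] (F ⧸ N) :=
    N.mapQ N (LinearMap.mulLeft K (algebraMap Fk F x)) (fun n hn => mul_mem_ceN x hn)
  have hXbig : ∀ f' : F, Xbig (N.mkQ f') = N.mkQ (algebraMap Fk F x * f') := fun f' => rfl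
  have hX : ∀ q ∈ M.map N.mkQ, Xbig q ∈ M.map N.mkQ := by
    rintro _ ⟨f', hf', rfl⟩
    exact ⟨_, mul_mem_ceM x hf', (hXbig f').symm⟩
  let X : Module.End K (M.map N.mkQ) := Xbig.restrict hX
  have hnontriv : Nontrivial (M.map N.mkQ) := by
    refine ⟨⟨⟨N.mkQ f₀, ⟨f₀, hf₀M, rfl⟩⟩, 0, ?_⟩⟩
    intro h
    have h1 := congrArg Subtype.val h
    exact hf₀N ((Submodule.Quotient.mk_eq_zero N).mp h1)
  have key : ∀ a : K, X.HasEigenvalue a ↔
      ∃ f' ∈ M, f' ∉ N ∧ algebraMap Fk F x * f' - a • f' ∈ N := by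
    intro a
    constructor
    · intro ha
      obtain ⟨⟨q, hq⟩, hv⟩ := ha.exists_hasEigenvector
      obtain ⟨f', hf', rfl⟩ := hq
      refine ⟨f', hf', ?_, ?_⟩
      · intro hfN
        apply hv.2
        apply Subtype.ext
        exact (Submodule.Quotient.mk_eq_zero N).mpr hfN
      · have h1 := congrArg Subtype.val hv.apply_eq_smul
        exact (Submodule.Quotient.eq N).mp h1
    · rintro ⟨f', hf', hfN, h⟩
      apply Module.End.hasEigenvalue_of_hasEigenvector (x := ⟨N.mkQ f', ⟨f', hf', rfl⟩⟩)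
      rw [Module.End.hasEigenvector_iff, Module.End.mem_eigenspace_iff]
      refine ⟨Subtype.ext ((Submodule.Quotient.eq N).mpr h), ?_⟩
      intro h0
      exact hfN ((Submodule.Quotient.mk_eq_zero N).mp (congrArg Subtype.val h0))
  obtain ⟨a, ha⟩ := Module.End.exists_eigenvalue X
  have hak : a ∉ Set.range (algebraMap k K) := by
    rintro ⟨a₀, rfl⟩
    obtain ⟨f', hf', hfN, h⟩ := (key _).mp ha
    apply hfN
    have hxa : x - algebraMap k Fk a₀ ≠ 0 := by
      intro h0
      apply hx
      rw [sub_eq_zero.mp h0]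
      exact isAlgebraic_algebraMap a₀
    have h1 : algebraMap Fk F x * f' - algebraMap k K a₀ • f'
        = algebraMap Fk F (x - algebraMap k Fk a₀) * f' := by
      rw [Algebra.smul_def, algebraMap_algebraMap_eq (Fk := Fk), map_sub]
      ring
    rw [h1] at h
    have h2 := mul_mem_ceN (K := K) (x - algebraMap k Fk a₀)⁻¹ h
    rwa [← mul_assoc, ← map_mul, inv_mul_cancel₀ hxa, map_one, one_mul] at h2
  have hatr : Transcendental k a := transcendental_of_not_mem_range hak
  have hall : ∀ m : ℕ, X.HasEigenvalue (a + m) := by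
    intro m
    obtain ⟨σ, hσ⟩ := hB5 a hatr m
    obtain ⟨τ, hτK, hτFk⟩ := hB6 σ
    obtain ⟨f', hf', hfN, h⟩ := (key _).mp ha
    rw [key]
    have hK1 : ∀ c : K, ∃ c' : K, τ (algebraMap K F c) = algebraMap K F c' :=
      fun c => ⟨_, hτK c⟩
    have hK2 : ∀ c : K, ∃ c' : K, τ.symm (algebraMap K F c) = algebraMap K F c' :=
      fun c => ⟨σ.symm c, by rw [RingEquiv.symm_apply_eq, hτK, AlgEquiv.apply_symm_apply]⟩
    have hFk2 : ∀ f : Fk, τ.symm (algebraMap Fk F f) = algebraMap Fk F f := fun f => by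
      rw [RingEquiv.symm_apply_eq, hτFk]
    refine ⟨τ f', map_mem_ceM τ hK1 hτFk hf', ?_, ?_⟩
    · intro hcon
      apply hfN
      have h1 := map_mem_ceN τ.symm hK2 hFk2 hcon
      rwa [RingEquiv.symm_apply_apply] at h1
    · have h1 := map_mem_ceN τ hK1 hτFk h
      rwa [map_sub, map_mul, hτFk, Algebra.smul_def, map_mul, hτK, hσ,
        ← Algebra.smul_def (a + (m : K)) (τ f')] at h1
  have hfinE := Module.End.finite_hasEigenvalue X
  have hinf : {μ | X.HasEigenvalue μ}.Infinite :=
    Set.infinite_of_injective_forall_mem (f := fun m : ℕ => a + (m : K))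
      (fun m m' h => by simpa using h) hall
  exact hinf hfinE

/-! ## the theorem -/

/-- **[B3], core form.** -/
theorem ell_mapDomain_of_ext [IsAlgClosed k] [IsAlgClosed K] [CharZero K] [IsFF1 k Fk]
    [IsFF1 K F] (e : Place k Fk → Place K F)
    (he_ord : ∀ P f, (e P).ord (algebraMap Fk F f) = P.ord f)
    (he_inj : Function.Injective e)
    (he_range : ∀ (w : Place K F) (g : Fk), w.ord (algebraMap Fk F g) < 0 → w ∈ Set.range e)
    (hlin : ∀ (n : ℕ) (f : Fin n → Fk), LinearIndependent k f →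
      LinearIndependent K (fun i => algebraMap Fk F (f i)))
    (hfin_k : ∀ D : Divisor k Fk, Module.Finite k (riemannRochSpace D))
    (hfin_K : ∀ D : Divisor K F, Module.Finite K (riemannRochSpace D))
    (hR_k : ∃ c g : ℤ, ∀ D : Divisor k Fk, c ≤ Divisor.degree D →
      (ell D : ℤ) = Divisor.degree D + 1 - g)
    (hR_K : ∃ c g : ℤ, ∀ D : Divisor K F, c ≤ Divisor.degree D →
      (ell D : ℤ) = Divisor.degree D + 1 - g)
    (hB5 : ∀ z : K, Transcendental k z → ∀ m : ℕ, ∃ σ : K ≃ₐ[k] K, σ z = z + m)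
    (hB6 : ∀ σ : K ≃ₐ[k] K, ∃ σF : F ≃+* F,
      (∀ c : K, σF (algebraMap K F c) = algebraMap K F (σ c)) ∧
        ∀ f : Fk, σF (algebraMap Fk F f) = algebraMap Fk F f)
    (D : Divisor k Fk) : ell (D.mapDomain e) = ell D := by
  have hQ := finite_map_ceM e he_ord he_inj he_range hlin hfin_k hfin_K hR_k hR_K
  have hMN := ceM_le_ceN hQ hB5 hB6
  have hle : riemannRochSpace (D.mapDomain e) ≤ ceW K F D := by
    intro f' hf'
    have hN := hMN (riemannRochSpace_mapDomain_le_ceM e he_ord he_inj D hf')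
    obtain ⟨φ, rfl⟩ := exists_repr_of_mem_ceN (Module.Basis.ofVectorSpace k K) hN
    rw [mem_riemannRochSpace_mapDomain_iff e he_inj] at hf'
    refine Submodule.sum_mem _ fun i _ =>
      Submodule.smul_mem _ _ (Submodule.subset_span ⟨φ i, ?_, rfl⟩)
    rw [SetLike.mem_coe, mem_riemannRochSpace_iff]
    intro P
    exact coeff_ord_ge _ e he_ord P (- D P) φ (hf'.1 P) i
  have heq : riemannRochSpace (D.mapDomain e) = ceW K F D :=
    le_antisymm hle (ceW_le_riemannRochSpace e he_ord he_inj he_range D)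
  have := hfin_k D
  rw [← finrank_ceW (K := K) (F := F) hlin D, ← heq]
  rfl

/-- the form of `he_range` needed above follows from the form in [B2]. -/
theorem ext_range_of_transcendental [IsAlgClosed k] (e : Place k Fk → Place K F)
    (h : ∀ {x : Fk}, Transcendental k x → ∀ w : Place K F,
      (w.ord (algebraMap Fk F x) < 0 ∨
        ∃ a : k, 0 < w.ord (algebraMap Fk F x - algebraMap K F (algebraMap k K a))) →
      w ∈ Set.range e)
    (w : Place K F) (g : Fk) (hg : w.ord (algebraMap Fk F g) < 0) : w ∈ Set.range e := by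
  refine h (transcendental_of_not_mem_range ?_) w (Or.inl hg)
  rintro ⟨a, rfl⟩
  rw [← algebraMap_algebraMap_eq (K := K), ord_algebraMap] at hg
  exact lt_irrefl _ hg

end Core

end Fermat.Agent.S27.EllExtCore
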