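import Mathlib

/-!
# S27 [B9]: a countable field of characteristic `0` embeds into `ℂ`.
-/

set_option autoImplicit false

namespace Fermat.Agent.S27.B

open Cardinal

universe u

/-- Auxiliary version of `exists_ringHom_complex` with an explicit universe. -/
theorem exists_ringHom_complex_aux (k : Type u) [Field k] [CharZero k] [Countable k] :
    Nonempty (k →+* ℂ) := by
  -- a big algebraically closed field containing `k`, of cardinality the continuum
  let P := MvPolynomial ℝ k
  let F := FractionRing P
  let L := AlgebraicClosure F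
  have hc : (ℵ₀ : Cardinal.{u}) ≤ 𝔠 := aleph0_le_continuum
  have hP : #P = (𝔠 : Cardinal.{u}) := by
    have h1 : #P = lift.{0} #k ⊔ lift.{u} #ℝ ⊔ ℵ₀ := MvPolynomial.cardinalMk_eq_max_lift
    rw [h1, mk_real, lift_uzero, lift_continuum]
    have hk : #k ≤ ℵ₀ := mk_le_aleph0
    rw [sup_eq_left.2 (le_sup_of_le_right hc), sup_eq_right.2 (hk.trans hc)]
  have hF : #F = #P := Localization.cardinalMk le_rfl
  have hL1 : #L ≤ (𝔠 : Cardinal.{u}) := by
    have := Algebra.IsAlgebraic.cardinalMk_le_max F L
    rw [hF, hP] at this
    exact this.trans (max_le le_rfl hc)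
  have hL2 : (𝔠 : Cardinal.{u}) ≤ #L := by
    rw [← hP, ← hF]
    exact mk_le_of_injective (algebraMap F L).injective
  have hL : #L = (𝔠 : Cardinal.{u}) := le_antisymm hL1 hL2
  have hLC : Nonempty (L ≃ ℂ) := by
    rw [← Cardinal.lift_mk_eq', hL, mk_complex]
    simp
  have hunc : ℵ₀ < #L := by
    rw [hL]; exact aleph0_lt_continuum
  have : CharZero P := charZero_of_injective_algebraMap (R := k) (MvPolynomial.C_injective ℝ k)
  have : CharZero F := charZero_of_injective_algebraMap (IsFractionRing.injective P F)
  have : CharZero L := charZero_of_injective_algebraMap (algebraMap F L).injective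
  obtain ⟨e⟩ := IsAlgClosed.ringEquiv_of_equiv_of_charZero hunc hLC
  exact ⟨(e : L →+* ℂ).comp (((algebraMap F L).comp (algebraMap P F)).comp (algebraMap k P))⟩

/-- A countable field of characteristic zero embeds into `ℂ`. -/
theorem exists_ringHom_complex (k : Type*) [Field k] [CharZero k] [Countable k] :
    Nonempty (k →+* ℂ) :=
  exists_ringHom_complex_aux k

end Fermat.Agent.S27.B
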